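import Fermat.Agent.Chebotarev.Weights
import Mathlib.Analysis.Complex.Polynomial.Basic
import Mathlib.NumberTheory.LSeries.Nonvanishing

/-!
# Chebotarev's theorem in a cyclotomically separated cyclic case

`E` is Galois over `ℚ` and contains a primitive `m`-th root of unity, `u ∈ Gal(E/ℚ)` generates a
cyclic group on which the cyclotomic character is injective with image not containing `-1`.
Assuming the behaviour at `s = 1` of the twisted L-series of the fixed field of `u` (see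
`LSeriesDichotomy`), some Frobenius element outside a given finite set is conjugate to `u`.
-/

set_option autoImplicit false

noncomputable section

namespace Fermat.Agent.Chebotarev

open NumberField Filter Topology
open scoped Pointwise BigOperators

/-- Either a simple pole at `1` or a finite limit, for the L-series of `χ ∘ absNorm`. -/
def LSeriesDichotomy (M : Type*) [Field M] [NumberField M] {m : ℕ} (χ : DirichletCharacter ℂ m) :
    Prop :=
  ∃ a : ℂ, Tendsto (fun s : ℝ ↦ ((s : ℂ) - 1) * LSeries (chiCoeff M χ) s) (𝓝[>] 1) (𝓝 a) ∧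
    (a = 0 → ∃ l : ℂ, Tendsto (fun s : ℝ ↦ LSeries (chiCoeff M χ) s) (𝓝[>] 1) (𝓝 l))

/-- A function with logarithmic sum zero has coefficient zero. -/
lemma LogSum.eq_zero {k : ℂ} (h : LogSum (fun _ ↦ 0) k) : k = 0 := by
  obtain ⟨l, hl⟩ := h
  have hl' : Tendsto (fun s : ℝ ↦ -k * (logPole s : ℂ)) (𝓝[>] 1) (𝓝 l) :=
    hl.congr fun s ↦ by simp [wSum]
  have hinv : Tendsto (fun s : ℝ ↦ ((logPole s)⁻¹ : ℂ)) (𝓝[>] 1) (𝓝 0) := by
    have h0 := (Complex.continuous_ofReal.tendsto 0).comp tendsto_logPole.inv_tendsto_atTop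
    rw [Complex.ofReal_zero] at h0
    exact h0.congr fun s ↦ by simp
  have h2 := hl'.mul hinv
  rw [mul_zero] at h2
  have h3 : Tendsto (fun _ : ℝ ↦ -k) (𝓝[>] 1) (𝓝 0) := by
    refine h2.congr' ?_
    filter_upwards [tendsto_logPole.eventually_gt_atTop 0] with s hs
    have : ((logPole s : ℝ) : ℂ) ≠ 0 := Complex.ofReal_ne_zero.mpr hs.ne'
    field_simp
  exact neg_eq_zero.mp (tendsto_nhds_unique tendsto_const_nhds h3)

open Classical in
/-- Orthogonality for the even Dirichlet characters. -/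
lemma sum_even_char {m : ℕ} [NeZero m] {a b : ZMod m} (ha : IsUnit a) :
    ∑ χ ∈ (Finset.univ : Finset (DirichletCharacter ℂ m)).filter (fun χ ↦ χ.Even), χ a⁻¹ * χ b
      = (m.totient : ℂ) / 2 * ((if a = b then 1 else 0) + if a = -b then 1 else 0) := by
  have h1 := DirichletCharacter.sum_char_inv_mul_char_eq ℂ ha b
  have h2 := DirichletCharacter.sum_char_inv_mul_char_eq ℂ ha (-b)
  have key : ∀ χ : DirichletCharacter ℂ m,
      (if χ.Even then χ a⁻¹ * χ b else 0) = (χ a⁻¹ * χ b + χ a⁻¹ * χ (-b)) / 2 := by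
    intro χ
    split_ifs with h
    · rw [h.eval_neg]; ring
    · rw [((DirichletCharacter.even_or_odd χ).resolve_left h).eval_neg]; ring
  rw [Finset.sum_filter, Finset.sum_congr rfl fun χ _ ↦ key χ, ← Finset.sum_div,
    Finset.sum_add_distrib, h1, h2]
  split_ifs <;> ring

variable {E : Type*} [Field E] [NumberField E] [IsGalois ℚ E]

/-- A Frobenius datum at `p`: a prime ideal over `p` and a Frobenius element there. -/
def IsFrobPair (p : ℕ) (F : E ≃ₐ[ℚ] E) (Q : Ideal (𝓞 E)) : Prop :=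
  Q.IsPrime ∧ (p : 𝓞 E) ∈ Q ∧ ∀ x : 𝓞 E, F • x - x ^ p ∈ Q

omit [IsGalois ℚ E] in
/-- Outside finitely many primes, Frobenius acts on roots of unity as the `p`-th power. -/
lemma exists_autToPow_frob {m : ℕ} [NeZero m] {ζ : E} (hζ : IsPrimitiveRoot ζ m) :
    ∃ n : ℕ, n ≠ 0 ∧ ∀ p : ℕ, p.Prime → ¬ p ∣ n → ∀ (F : E ≃ₐ[ℚ] E) (Q : Ideal (𝓞 E)),
      IsFrobPair p F Q → ((hζ.autToPow ℚ F : (ZMod m)ˣ) : ZMod m) = (p : ZMod m) := by
  set z : 𝓞 E := hζ.toInteger with hz
  obtain ⟨n, hn0, hn⟩ := exists_bad_integer_family E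
    (fun ij : Fin m × Fin m ↦ z ^ (ij.1 : ℕ) - z ^ (ij.2 : ℕ))
  refine ⟨n, hn0, fun p hp hpn F Q ⟨hQ, hpQ, hF⟩ ↦ ?_⟩
  set c : ZMod m := ((hζ.autToPow ℚ F : (ZMod m)ˣ) : ZMod m) with hc
  have hspec : ζ ^ c.val = F ζ := hζ.autToPow_spec ℚ F
  have hzE : algebraMap (𝓞 E) E z = ζ := rfl
  have hzm : z ^ m = 1 := RingOfIntegers.ext (by simp only [map_pow, map_one, hzE, hζ.pow_eq_one])
  have hmem : z ^ c.val - z ^ (p % m) ∈ Q := by
    have h1 := hF z
    rw [show F • z = z ^ c.val from RingOfIntegers.ext (by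
      simp only [map_pow, hzE]; exact hspec.symm)] at h1
    rwa [← pow_eq_pow_mod p hzm]
  have heq := hn p hp hpn Q hQ hpQ (⟨c.val, ZMod.val_lt c⟩, ⟨p % m, Nat.mod_lt _ (NeZero.pos m)⟩) hmem
  have heq' : ζ ^ c.val = ζ ^ (p % m) := by
    have := congrArg (fun x : 𝓞 E ↦ (x : E)) (sub_eq_zero.mp heq)
    simpa only [map_pow, hzE] using this
  have := hζ.pow_inj (ZMod.val_lt c) (Nat.mod_lt _ (NeZero.pos m)) heq'
  rw [← ZMod.natCast_zmod_val c, this, ZMod.natCast_mod]

open Classical in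
/-- Chebotarev for a cyclotomically separated element `u`. -/
theorem exists_frobenius_conj_eq {m : ℕ} [NeZero m] {ζ : E} (hζ : IsPrimitiveRoot ζ m)
    (u : E ≃ₐ[ℚ] E)
    (hinj : ∀ g ∈ Subgroup.zpowers u, hζ.autToPow ℚ g = 1 → g = 1)
    (hneg : ∀ g ∈ Subgroup.zpowers u, hζ.autToPow ℚ g ≠ -1)
    (hL : ∀ (m' : ℕ) [NeZero m'] (χ : DirichletCharacter ℂ m'), χ.Even →
      LSeriesDichotomy (IntermediateField.fixedField (Subgroup.zpowers u)) χ)
    (Fr : Nat.Primes → E ≃ₐ[ℚ] E) (Qf : Nat.Primes → Ideal (𝓞 E))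
    (hFr : ∀ p : Nat.Primes, IsFrobPair p (Fr p) (Qf p)) (T : Finset ℕ) :
    ∃ p : Nat.Primes, (p : ℕ) ∉ T ∧ ∃ g, g⁻¹ * Fr p * g = u := by
  classical
  by_contra hcon
  push Not at hcon
  set U := Subgroup.zpowers u with hU
  set M := IntermediateField.fixedField U
  set cyc : (E ≃ₐ[ℚ] E) →* (ZMod m)ˣ := hζ.autToPow ℚ with hcyc
  -- the bad primes
  obtain ⟨nc, hnc0, hnc⟩ := exists_autToPow_frob hζ
  choose nH hnH0 hnH using fun H : Subgroup (E ≃ₐ[ℚ] E) ↦ exists_idealCount_eq_card_fixedBy E H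
  have : Fintype (Subgroup (E ≃ₐ[ℚ] E)) := Fintype.ofFinite _
  obtain ⟨B, hB⟩ := exists_bound_exp_primeSum M
  set N : ℕ := m * nc * (∏ H, nH H) * B.factorial * ∏ t ∈ T.erase 0, t with hN
  have hN0 : N ≠ 0 := by
    simp only [hN, mul_ne_zero_iff, Finset.prod_ne_zero_iff]
    exact ⟨⟨⟨⟨NeZero.ne m, hnc0⟩, fun H _ ↦ hnH0 H⟩, B.factorial_ne_zero⟩,
      fun t ht ↦ Finset.ne_of_mem_erase ht⟩
  have : NeZero N := ⟨hN0⟩
  have hmN : m ∣ N := ⟨nc * (∏ H, nH H) * B.factorial * ∏ t ∈ T.erase 0, t, by rw [hN]; ring⟩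
  let good : Nat.Primes → Prop := fun p ↦ ¬ (p : ℕ) ∣ N
  have hbadfin : {p : Nat.Primes | ¬ good p}.Finite := by
    refine Set.Finite.of_finite_image ((Set.finite_Iic N).subset ?_)
      Nat.Primes.coe_nat_injective.injOn
    rintro _ ⟨p, hp, rfl⟩
    exact Nat.le_of_dvd (Nat.pos_of_ne_zero hN0) (not_not.mp hp)
  have hgood_cyc : ∀ p, good p → ((cyc (Fr p) : (ZMod m)ˣ) : ZMod m) = ((p : ℕ) : ZMod m) :=
    fun p hp ↦ hnc p p.2 (fun h ↦ hp (h.trans ⟨m * (∏ H, nH H) * B.factorial * ∏ t ∈ T.erase 0, t,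
      by rw [hN]; ring⟩)) _ _ (hFr p)
  have hgood_T : ∀ p, good p → (p : ℕ) ∉ T := fun p hp hT ↦ by
    refine hp ?_
    rw [hN]
    exact (Finset.dvd_prod_of_mem (fun t : ℕ ↦ t)
      (Finset.mem_erase.mpr ⟨p.2.ne_zero, hT⟩)).trans (dvd_mul_left _ _)
  -- weights attached to subgroups
  let wt : Subgroup (E ≃ₐ[ℚ] E) → Nat.Primes → ℂ := fun H p ↦ if good p then (conjCount H (Fr p) : ℂ) else 0
  have hwtB : ∀ H, WBounded (wt H) := fun H ↦ ⟨Nat.card (E ≃ₐ[ℚ] E), fun p ↦ by
    simp only [wt]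
    split_ifs
    · rw [Complex.norm_natCast]; exact_mod_cast conjCount_le H _
    · simp⟩
  have hcount : ∀ (H : Subgroup (E ≃ₐ[ℚ] E)) (p : Nat.Primes), good p → (conjCount H (Fr p) : ℂ)
      = (Nat.card H : ℂ) * idealCount (IntermediateField.fixedField H) p := by
    intro H p hp
    have hpn : ¬ (p : ℕ) ∣ nH H := fun h ↦ hp ((h.trans (Finset.dvd_prod_of_mem _
      (Finset.mem_univ H))).trans ⟨m * nc * B.factorial * ∏ t ∈ T.erase 0, t, by rw [hN]; ring⟩)
    rw [conjCount_eq_card_mul, hnH H p p.2 hpn _ _ (hFr p).1 (hFr p).2.1 (hFr p).2.2]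
    push_cast
    rfl
  have hwt : ∀ H, LogSum (wt H) (Nat.card H) := by
    intro H
    have h1 := (logSum_idealCount (IntermediateField.fixedField H)).const_mul (Nat.card H : ℂ)
    rw [mul_one] at h1
    have hfin : {p | wt H p - (Nat.card H : ℂ) * idealCount (IntermediateField.fixedField H) p
        ≠ 0}.Finite := hbadfin.subset fun p hp hg ↦ hp (by simp only [wt, if_pos hg, hcount H p hg, sub_self])
    have hb : WBounded fun p : Nat.Primes ↦
        (Nat.card H : ℂ) * idealCount (IntermediateField.fixedField H) p := by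
      refine WBounded.const_mul ⟨2 ^ Module.finrank ℚ (IntermediateField.fixedField H), fun p ↦ ?_⟩ _
      rw [Complex.norm_natCast]
      have := idealCount_prime_pow_le (IntermediateField.fixedField H) p.2 1
      rw [pow_one] at this
      exact_mod_cast this
    have h3 := LogSum.add hb (WBounded.of_finite hfin) h1 (LogSum.of_finite hfin)
    rw [add_zero] at h3
    exact h3.congr fun p ↦ add_sub_cancel _ _
  -- values on the support of `wt U`
  set τ : ZMod m := ((cyc u : (ZMod m)ˣ) : ZMod m) with hτ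
  have hsupp : ∀ p, wt U p ≠ 0 → good p ∧ ∃ (g : (E ≃ₐ[ℚ] E)) (j : ℤ), g⁻¹ * Fr p * g = u ^ j ∧
      ((p : ℕ) : ZMod m) = (((cyc u) ^ j : (ZMod m)ˣ) : ZMod m) := by
    intro p hp
    have hg : good p := (Classical.em (good p)).resolve_right fun h ↦ hp (if_neg h)
    have hne : conjCount U (Fr p) ≠ 0 := fun h ↦ hp (by simp [wt, hg, h])
    obtain ⟨g, hgU⟩ := exists_of_conjCount_ne_zero hne
    obtain ⟨j, hj⟩ := Subgroup.mem_zpowers_iff.mp hgU
    refine ⟨hg, g, j, hj.symm, ?_⟩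
    rw [← map_zpow, hj, map_conj_eq, hgood_cyc p hg]
  have hneg' : ∀ i j : ℤ, (((cyc u) ^ i : (ZMod m)ˣ) : ZMod m)
      ≠ -(((cyc u) ^ j : (ZMod m)ˣ) : ZMod m) := by
    intro i j h
    refine hneg (u ^ (i - j)) (Subgroup.zpow_mem_zpowers u _) ?_
    have h' : (cyc u) ^ i = -((cyc u) ^ j) := Units.ext (by rw [Units.val_neg]; exact h)
    rw [map_zpow, zpow_sub, h', neg_mul, mul_inv_cancel]
  -- even characters
  set X := (Finset.univ : Finset (DirichletCharacter ℂ m)).filter (fun χ ↦ χ.Even) with hX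
  set X₀ := X.filter (fun χ ↦ χ τ = 1) with hX₀
  set X₁ := X.filter (fun χ ↦ χ τ ≠ 1) with hX₁
  let P : DirichletCharacter ℂ m → Nat.Primes → ℂ := fun χ p ↦ χ ((p : ℕ) : ZMod m) * wt U p
  have hPB : ∀ χ, WBounded (P χ) := fun χ ↦
    WBounded.mul ⟨1, fun p ↦ DirichletCharacter.norm_le_one χ _⟩ (hwtB U)
  have hP₀ : ∀ χ ∈ X₀, LogSum (P χ) (Nat.card U) := by
    intro χ hχ
    refine (hwt U).congr fun p ↦ ?_
    by_cases hp : wt U p = 0
    · simp only [P, hp, mul_zero]
    · obtain ⟨-, g, j, -, hpj⟩ := hsupp p hp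
      have hτ1 : χ.toUnitHom (cyc u) = 1 := Units.ext (by
        rw [MulChar.coe_toUnitHom]; exact (Finset.mem_filter.mp hχ).2)
      simp only [P]
      rw [hpj, ← MulChar.coe_toUnitHom, map_zpow, hτ1, one_zpow, Units.val_one, one_mul]
  -- restricting `p mod m` to one value
  have hunit : ∀ j : ℤ, IsUnit (((cyc u) ^ j : (ZMod m)ˣ) : ZMod m) := fun j ↦ Units.isUnit _
  have hproj : ∀ (j : ℤ) (p : Nat.Primes),
      ∑ χ ∈ X, χ (((cyc u) ^ j : (ZMod m)ˣ) : ZMod m)⁻¹ * P χ p
        = if ((p : ℕ) : ZMod m) = (((cyc u) ^ j : (ZMod m)ˣ) : ZMod m)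
          then (m.totient : ℂ) / 2 * wt U p else 0 := by
    intro j p
    simp only [P, ← mul_assoc]
    rw [← Finset.sum_mul, hX, sum_even_char (hunit j)]
    by_cases hp : wt U p = 0
    · simp [hp]
    · obtain ⟨-, g, i, -, hpi⟩ := hsupp p hp
      rw [if_neg (show ¬ _ = -((p : ℕ) : ZMod m) by rw [hpi]; exact hneg' j i)]
      split_ifs with h1 h2 h2
      · ring
      · exact absurd h1.symm h2
      · exact absurd h2.symm h1
      · ring
  -- the number of even characters trivial on `τ`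
  have hq : Nat.card U = orderOf u := Nat.card_zpowers u
  have hcard : (X₀.card : ℂ) * Nat.card U = (m.totient : ℂ) / 2 := by
    set q := orderOf u
    have hq0 : 0 < q := orderOf_pos u
    have hsum : ∑ i ∈ Finset.range q, ∑ χ ∈ X, χ ((1 : ZMod m))⁻¹ * χ (τ ^ i)
        = (m.totient : ℂ) / 2 := by
      rw [Finset.sum_eq_single 0]
      · rw [pow_zero, hX, sum_even_char isUnit_one, if_pos rfl, if_neg, add_zero, mul_one]
        simpa using hneg' 0 0
      · intro i hi hi0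
        have hne1 : (1 : ZMod m) ≠ τ ^ i := fun h ↦ by
          have h1 : cyc (u ^ i) = 1 := Units.ext (by rw [map_pow, Units.val_pow_eq_pow_val, ← h]; rfl)
          exact pow_ne_one_of_lt_orderOf hi0 (Finset.mem_range.mp hi)
            (hinj _ (Subgroup.npow_mem_zpowers u i) h1)
        rw [hX, sum_even_char isUnit_one, if_neg hne1, if_neg, add_zero, mul_zero]
        simpa [hτ] using hneg' 0 i
      · simp [hq0.ne']
    rw [Finset.sum_comm] at hsum
    rw [← hsum, hq, hX₀, Finset.card_filter, Nat.cast_sum, Finset.sum_mul]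
    refine Finset.sum_congr rfl fun χ _ ↦ ?_
    simp only [ZMod.inv_one, map_one, one_mul, map_pow]
    split_ifs with h
    · simp [h]
    · have hpow : (χ τ) ^ q = 1 := by
        rw [← map_pow, hτ, ← Units.val_pow_eq_pow_val, ← map_pow, pow_orderOf_eq_one, map_one,
          Units.val_one, map_one]
      rw [geom_sum_eq h, hpow, sub_self, zero_div, Nat.cast_zero, zero_mul]
  -- the L-series of the even characters
  let lift : DirichletCharacter ℂ m → DirichletCharacter ℂ N := fun χ ↦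
    DirichletCharacter.changeLevel hmN χ
  have hprime : ∀ χ s, primeSum (chiCoeff M (lift χ)) s
      = wSum (fun p ↦ (Nat.card U : ℂ)⁻¹ * P χ p) s := by
    intro χ s
    refine tsum_congr fun p ↦ congrArg (· * _) ?_
    rw [chiCoeff_of_ne_zero _ _ p.2.ne_zero]
    by_cases hp : good p
    · have hcop : IsUnit ((p : ℕ) : ZMod N) :=
        (ZMod.isUnit_iff_coprime _ _).mpr (p.2.coprime_iff_not_dvd.mpr hp)
      have hval : lift χ ((p : ℕ) : ZMod N) = χ ((p : ℕ) : ZMod m) := by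
        have h1 := DirichletCharacter.changeLevel_eq_cast_of_dvd χ hmN hcop.unit
        rw [IsUnit.unit_spec, ZMod.cast_natCast hmN] at h1
        exact h1
      rw [hval]
      simp only [P, wt, if_pos hp, hcount U p hp]
      have hne : (Nat.card U : ℂ) ≠ 0 := Nat.cast_ne_zero.mpr (Nat.card_pos (α := U)).ne'
      field_simp
      rfl
    · simp only [P, wt, if_neg hp, mul_zero]
      rw [MulChar.map_nonunit, zero_mul]
      rw [ZMod.isUnit_iff_coprime]
      exact fun h ↦ hp (p.2.coprime_iff_not_dvd.mp h)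
  have hsmall : ∀ p : ℕ, p.Prime → p ≤ B → p ∣ N := fun p hp hle ↦
    (Nat.dvd_factorial hp.pos hle).trans
      ⟨m * nc * (∏ H, nH H) * ∏ t ∈ T.erase 0, t, by rw [hN]; ring⟩
  choose R hRc hR using fun χ ↦ hB (lift χ) hsmall
  let Φ : DirichletCharacter ℂ m → ℝ → ℂ := fun χ s ↦
    wSum (fun p ↦ (Nat.card U : ℂ)⁻¹ * P χ p) s + R χ s
  have hΦexp : ∀ χ, (fun s : ℝ ↦ LSeries (chiCoeff M (lift χ)) s) =ᶠ[𝓝[>] 1]
      fun s ↦ Complex.exp (Φ χ s) := fun χ ↦ by
    filter_upwards [Ioc_mem_nhdsGT_one] with s hs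
    rw [hR χ s hs, hprime]
  have hΦc : ∀ χ, ContinuousOn (Φ χ) (Set.Ioc 1 2) := fun χ ↦
    ((continuousOn_wSum ((hPB χ).const_mul _)).mono fun s hs ↦ hs.1).add
      ((hRc χ).mono Set.Ioc_subset_Icc_self)
  have hRlim : ∀ χ, Tendsto (R χ) (𝓝[>] 1) (𝓝 (R χ 1)) := fun χ ↦
    ((hRc χ) 1 (by simp)).tendsto.mono_left
      (nhdsWithin_le_of_mem (mem_of_superset Ioc_mem_nhdsGT_one Set.Ioc_subset_Icc_self))
  -- no pole for the characters nontrivial on `τ`
  have hlim : ∀ χ ∈ X₁, ∃ l, Tendsto (fun s ↦ Complex.exp (Φ χ s)) (𝓝[>] 1) (𝓝 l) := by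
    intro χ hχ
    obtain ⟨hχX, hχτ⟩ := Finset.mem_filter.mp hχ
    have heven : (lift χ).Even := by
      have h1 : lift χ ((-1 : (ZMod N)ˣ) : ZMod N) = χ (((-1 : (ZMod N)ˣ) : ZMod N).cast : ZMod m) :=
        DirichletCharacter.changeLevel_eq_cast_of_dvd χ hmN (-1)
      rw [Units.val_neg, Units.val_one, ZMod.cast_neg hmN, ZMod.cast_one hmN] at h1
      exact h1.trans (Finset.mem_filter.mp hχX).2
    obtain ⟨a, ha, ha'⟩ := hL N (lift χ) heven
    suffices ha0 : a = 0 by
      obtain ⟨l, hl⟩ := ha' ha0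
      exact ⟨l, hl.congr' (hΦexp χ)⟩
    by_contra ha0
    -- the values different from one have real part at most `θ < 1`
    let V : Finset ℝ := insert 0 ((Finset.univ.filter
      (fun c : (ZMod m)ˣ ↦ χ (c : ZMod m) ≠ 1)).image fun c : (ZMod m)ˣ ↦ (χ (c : ZMod m)).re)
    set θ := V.max' (Finset.insert_nonempty _ _) with hθ
    have hθ1 : θ < 1 := by
      rw [hθ, Finset.max'_lt_iff]
      intro x hx
      simp only [V, Finset.mem_insert, Finset.mem_image, Finset.mem_filter, Finset.mem_univ,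
        true_and] at hx
      rcases hx with rfl | ⟨c, hc, rfl⟩
      · exact one_pos
      · have hn : ‖χ (c : ZMod m)‖ = 1 := DirichletCharacter.unit_norm_eq_one χ c
        refine lt_of_le_of_ne ((Complex.re_le_norm _).trans_eq hn) fun hre ↦ hc (Complex.ext hre ?_)
        have hsq := Complex.sq_norm (χ (c : ZMod m))
        rw [hn, Complex.normSq_apply, hre] at hsq
        have h0 : (χ (c : ZMod m)).im * (χ (c : ZMod m)).im = 0 := by linarith
        simpa using h0
    -- primes where `χ` is one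
    let f : (E ≃ₐ[ℚ] E) →* ℂˣ := χ.toUnitHom.comp cyc
    set U' := U ⊓ f.ker with hU'
    have hf : ∀ p, good p → ((f (Fr p) : ℂˣ) : ℂ) = χ ((p : ℕ) : ZMod m) := fun p hp ↦ by
      simp only [f, MonoidHom.comp_apply, MulChar.coe_toUnitHom, hgood_cyc p hp]
    have hlt : Nat.card U' < Nat.card U := by
      refine lt_of_le_of_ne (Subgroup.card_le_of_le inf_le_left) fun h ↦ hχτ ?_
      have hu : u ∈ U' := by
        rw [hU', Subgroup.eq_of_le_of_card_ge inf_le_left h.ge]
        exact Subgroup.mem_zpowers u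
      have h2 := congrArg Units.val (MonoidHom.mem_ker.mp (Subgroup.mem_inf.mp hu).2)
      simp only [f, MonoidHom.comp_apply, MulChar.coe_toUnitHom, Units.val_one] at h2
      exact h2
    let W : Nat.Primes → ℂ := fun p ↦ ((1 - θ : ℝ) : ℂ) * wt U' p + (θ : ℂ) * wt U p
    have hWB : WBounded W := ((hwtB U').const_mul _).add ((hwtB U).const_mul _)
    have hW : LogSum W (((1 - θ) * Nat.card U' + θ * Nat.card U : ℝ) : ℂ) := by
      have := LogSum.add ((hwtB U').const_mul _) ((hwtB U).const_mul _)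
        ((hwt U').const_mul ((1 - θ : ℝ) : ℂ)) ((hwt U).const_mul (θ : ℂ))
      simp only [W]
      push_cast at this ⊢
      exact this
    have hle : ∀ p, (P χ p).re ≤ (W p).re := by
      intro p
      by_cases hp : good p
      · have hU'p : conjCount U' (Fr p) = if f (Fr p) = 1 then conjCount U (Fr p) else 0 := by
          rw [hU', conjCount_inf_ker f U (Fr p)]
          congr
        have hiff : f (Fr p) = 1 ↔ χ ((p : ℕ) : ZMod m) = 1 := by
          rw [← hf p hp, Units.val_eq_one]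
        simp only [P, W, wt, if_pos hp, hU'p]
        simp only [Complex.mul_re, Complex.add_re, Complex.ofReal_re, Complex.ofReal_im,
          Complex.natCast_re, Complex.natCast_im, mul_zero, sub_zero]
        by_cases h1 : χ ((p : ℕ) : ZMod m) = 1
        · rw [if_pos (hiff.mpr h1), h1, Complex.one_re]; ring_nf; rfl
        · rw [if_neg (fun h ↦ h1 (hiff.mp h))]
          have hre : (χ ((p : ℕ) : ZMod m)).re ≤ θ := by
            refine Finset.le_max' _ _ ?_
            refine Finset.mem_insert_of_mem (Finset.mem_image.mpr ⟨cyc (Fr p), ?_, ?_⟩)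
            · simp [hgood_cyc p hp, h1]
            · rw [hgood_cyc p hp]
          rw [Nat.cast_zero, mul_zero, zero_add]
          exact mul_le_mul_of_nonneg_right hre (Nat.cast_nonneg _)
      · simp only [P, W, wt, if_neg hp, mul_zero, add_zero, le_refl]
    obtain ⟨w₀, hw₀⟩ := hW.re_tendsto
    set q : ℝ := (Nat.card U : ℝ) with hqdef
    have hq0 : 0 < q := by rw [hqdef]; exact_mod_cast Nat.card_pos
    set κ : ℝ := (1 - θ) * Nat.card U' + θ * q with hκ
    have hκq : 0 < q - κ := by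
      have : (Nat.card U' : ℝ) < q := by rw [hqdef]; exact_mod_cast hlt
      rw [hκ]
      nlinarith
    -- compare with `‖(s - 1) L‖ → ‖a‖`
    have hlog : Tendsto (fun s : ℝ ↦ (Φ χ s).re - logPole s) (𝓝[>] 1) (𝓝 (Real.log ‖a‖)) := by
      refine ((ha.norm).log (norm_ne_zero_iff.mpr ha0)).congr' ?_
      filter_upwards [hΦexp χ, Ioc_mem_nhdsGT_one] with s hs hs1
      have hpos : 0 < s - 1 := sub_pos.mpr hs1.1
      rw [hs, norm_mul, Complex.norm_exp, ← Complex.ofReal_one, ← Complex.ofReal_sub,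
        Complex.norm_real, Real.norm_of_nonneg hpos.le, Real.log_mul hpos.ne' (Real.exp_ne_zero _),
        Real.log_exp, logPole, Real.log_inv]
      ring
    have hbound : ∀ᶠ s in 𝓝[>] (1 : ℝ), q * ((Φ χ s).re - logPole s)
        + (q - κ) * logPole s ≤ (wSum W s).re - κ * logPole s + q * (R χ s).re := by
      filter_upwards [self_mem_nhdsWithin] with s hs
      have h1 := re_wSum_le (hPB χ) hWB hle (Set.mem_Ioi.mp hs)
      have h2 : (Φ χ s).re = q⁻¹ * (wSum (P χ) s).re + (R χ s).re := by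
        simp only [Φ, wSum_const_mul, Complex.add_re]
        rw [show (Nat.card U : ℂ)⁻¹ = ((q⁻¹ : ℝ) : ℂ) by rw [hqdef]; push_cast; rfl,
          Complex.re_ofReal_mul]
      have h3 : q * (Φ χ s).re = (wSum (P χ) s).re + q * (R χ s).re := by
        rw [h2]; field_simp
      nlinarith [h3]
    have htop : Tendsto (fun s : ℝ ↦ q * ((Φ χ s).re - logPole s) + (q - κ) * logPole s)
        (𝓝[>] 1) atTop :=
      (hlog.const_mul q).add_atTop (tendsto_logPole.const_mul_atTop hκq)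
    have hfin : Tendsto (fun s : ℝ ↦ (wSum W s).re - κ * logPole s + q * (R χ s).re) (𝓝[>] 1)
        (𝓝 (w₀ + q * (R χ 1).re)) :=
      hw₀.add (((Complex.continuous_re.tendsto _).comp (hRlim χ)).const_mul q)
    exact not_tendsto_atTop_of_tendsto_nhds hfin (tendsto_atTop_mono' _ hbound htop)
  choose! lv hlv using hlim
  -- their product has a nonzero limit
  have hqne : (Nat.card U : ℂ) ≠ 0 := Nat.cast_ne_zero.mpr Nat.card_pos.ne'
  have hXsplit : X₀ ∪ X₁ = X := Finset.filter_union_filter_not_eq _ _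
  have hdisj : Disjoint X₀ X₁ := Finset.disjoint_filter_filter_not _ _ _
  have hsum₁ : LogSum (fun p ↦ ∑ χ ∈ X₁, P χ p) 0 := by
    have hone : LogSum (fun p ↦ (m.totient : ℂ) / 2 * wt ⊥ p) ((m.totient : ℂ) / 2) := by
      simpa using (hwt ⊥).const_mul ((m.totient : ℂ) / 2)
    have h0 := LogSum.sum X₀ (fun χ _ ↦ hPB χ) hP₀
    rw [Finset.sum_const, nsmul_eq_mul, hcard] at h0
    have hb0 : WBounded fun p ↦ ∑ χ ∈ X₀, P χ p :=
      Finset.induction_on X₀ ⟨0, fun p ↦ by simp⟩ fun χ t hχ ih ↦ by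
        simpa [Finset.sum_insert hχ] using (hPB χ).add ih
    have h := LogSum.add ((hwtB ⊥).const_mul _) (hb0.const_mul (-1)) hone (h0.const_mul (-1))
    rw [show (m.totient : ℂ) / 2 + -1 * ((m.totient : ℂ) / 2) = 0 by ring] at h
    refine h.congr fun p ↦ ?_
    have hp1 := hproj 0 p
    rw [zpow_zero, Units.val_one] at hp1
    simp only [ZMod.inv_one, map_one, one_mul] at hp1
    rw [← hXsplit, Finset.sum_union hdisj] at hp1
    have hbot : (m.totient : ℂ) / 2 * wt ⊥ p
        = if ((p : ℕ) : ZMod m) = 1 then (m.totient : ℂ) / 2 * wt U p else 0 := by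
      by_cases hp : good p
      · have hker : U ⊓ cyc.ker = ⊥ := by
          rw [eq_bot_iff]
          exact fun g hg ↦ Subgroup.mem_bot.mpr
            (hinj g (Subgroup.mem_inf.mp hg).1 (MonoidHom.mem_ker.mp (Subgroup.mem_inf.mp hg).2))
        simp only [wt, if_pos hp]
        rw [← hker, conjCount_inf_ker cyc U (Fr p)]
        by_cases h1 : ((p : ℕ) : ZMod m) = 1
        · rw [if_pos h1, if_pos (Units.ext (by rw [hgood_cyc p hp, h1, Units.val_one]))]
        · rw [if_neg h1, if_neg (fun h ↦ h1 (by rw [← hgood_cyc p hp, h, Units.val_one]))]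
          simp
      · simp [wt, hp]
    rw [hbot]
    linear_combination -hp1
  have hne : ∀ χ ∈ X₁, lv χ ≠ 0 := by
    obtain ⟨z, hz⟩ := hsum₁
    have hΦsum : Tendsto (fun s ↦ ∑ χ ∈ X₁, Φ χ s) (𝓝[>] 1)
        (𝓝 ((Nat.card U : ℂ)⁻¹ * z + ∑ χ ∈ X₁, R χ 1)) := by
      refine ((hz.const_mul (Nat.card U : ℂ)⁻¹).add
        (tendsto_finsetSum _ fun χ _ ↦ hRlim χ)).congr' ?_
      filter_upwards [self_mem_nhdsWithin] with s hs
      simp only [Φ, Finset.sum_add_distrib, wSum_const_mul, ← Finset.mul_sum, zero_mul, sub_zero]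
      rw [wSum_finset_sum _ (fun χ _ ↦ hPB χ) hs]
    have h1 : Tendsto (fun s ↦ ∏ χ ∈ X₁, Complex.exp (Φ χ s)) (𝓝[>] 1)
        (𝓝 (Complex.exp ((Nat.card U : ℂ)⁻¹ * z + ∑ χ ∈ X₁, R χ 1))) := by
      simp only [← Complex.exp_sum]
      exact (Complex.continuous_exp.tendsto _).comp hΦsum
    have h2 := tendsto_finsetProd X₁ fun χ hχ ↦ hlv χ hχ
    exact Finset.prod_ne_zero_iff.mp (tendsto_nhds_unique h2 h1 ▸ Complex.exp_ne_zero _)
  have hP₁ : ∀ χ ∈ X₁, LogSum (P χ) 0 := by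
    intro χ hχ
    obtain ⟨z, hz⟩ := exists_tendsto_of_tendsto_exp (hΦc χ) (hne χ hχ) (hlv χ hχ)
    refine ⟨(Nat.card U : ℂ) * (z - R χ 1), ((hz.sub (hRlim χ)).const_mul _).congr fun s ↦ ?_⟩
    simp only [Φ, wSum_const_mul]
    field_simp
    ring
  -- conclusion: the class of `u`
  have hzero : ∀ p, ∑ χ ∈ X, χ τ⁻¹ * P χ p = 0 := by
    intro p
    have h := hproj 1 p
    rw [zpow_one, ← hτ] at h
    rw [h]
    split_ifs with hp
    · by_cases hw : wt U p = 0
      · rw [hw, mul_zero]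
      · obtain ⟨hg, g, j, hj, hpj⟩ := hsupp p hw
        refine absurd ?_ (hcon p (hgood_T p hg) g)
        rw [hj]
        have h1 : hζ.autToPow ℚ (u ^ (j - 1)) = 1 := by
          refine Units.ext ?_
          rw [← hcyc, map_zpow, zpow_sub_one, Units.val_mul, ← hpj, hp, hτ, ← Units.val_mul,
            mul_inv_cancel]
        have h2 := hinj _ (Subgroup.zpow_mem_zpowers u _) h1
        rwa [zpow_sub_one, mul_inv_eq_one] at h2
    · rfl
  have hfinal : LogSum (fun _ ↦ 0) ((X₀.card : ℂ) * Nat.card U) := by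
    have h0 : ∀ χ ∈ X₀, χ τ⁻¹ = 1 := fun χ hχ ↦ by
      have h1 := (Finset.mem_filter.mp hχ).2
      have h3 : χ τ⁻¹ * χ τ = 1 := by
        rw [← map_mul, hτ, ZMod.inv_coe_unit, Units.inv_mul, map_one]
      rwa [h1, mul_one] at h3
    have h := LogSum.sum X (k := fun χ ↦ if χ τ = 1 then (Nat.card U : ℂ) else 0)
      (w := fun χ p ↦ χ τ⁻¹ * P χ p) (fun χ _ ↦ (hPB χ).const_mul _) fun χ hχ ↦ by
        by_cases h1 : χ τ = 1
        · rw [if_pos h1]
          have hmem : χ ∈ X₀ := Finset.mem_filter.mpr ⟨hχ, h1⟩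
          simpa [h0 χ hmem] using (hP₀ χ hmem).const_mul 1
        · rw [if_neg h1]
          simpa using (hP₁ χ (Finset.mem_filter.mpr ⟨hχ, h1⟩)).const_mul (χ τ⁻¹)
    rw [← Finset.sum_filter, ← hX₀, Finset.sum_const, nsmul_eq_mul] at h
    exact h.congr hzero
  have h := hfinal.eq_zero
  rw [hcard, div_eq_zero_iff] at h
  refine h.elim (fun h0 ↦ ?_) two_ne_zero
  exact (Nat.totient_pos.mpr (NeZero.pos m)).ne' (by exact_mod_cast h0)

end Fermat.Agent.Chebotarev

end
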