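import Fermat.Agent.ExtVanishing.ClassSum
import Fermat.Agent.Chebotarev.Density
import Mathlib.RingTheory.Norm.Basic
import Mathlib.Analysis.Calculus.Deriv.Slope
import Mathlib.Analysis.SpecialFunctions.Pow.Deriv
import Mathlib.Analysis.Calculus.Deriv.Comp
import Mathlib.Analysis.Complex.RealDeriv

/-!
# The L-series of an even Dirichlet character composed with the absolute norm, near `s = 1`

Grouping lattice points by residues modulo an integer `D` gives
`L(s) = A(s) * Z(s) + H(s)` with `A` entire, `H` continuous on `[1, 2]` and `Z` independent of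
the character, with a simple pole at `1`.
-/

set_option autoImplicit false

noncomputable section

namespace Fermat.Agent.Chebotarev

open NumberField Filter Topology
open Fermat.Agent.ExtVanishing hiding idealTerm_nonneg
open scoped nonZeroDivisors BigOperators

variable (K : Type*) [Field K] [NumberField K]

/-- Norms of congruent algebraic integers are congruent. -/
lemma norm_cast_eq_of_sub_dvd (a : ℕ) {x y : 𝓞 K} (h : (a : 𝓞 K) ∣ x - y) :
    ((Algebra.norm ℤ x : ℤ) : ZMod a) = ((Algebra.norm ℤ y : ℤ) : ZMod a) := by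
  classical
  obtain ⟨z, hz⟩ := h
  let b := Module.Free.chooseBasis ℤ (𝓞 K)
  rw [Algebra.norm_eq_matrix_det b, Algebra.norm_eq_matrix_det b]
  show Int.castRingHom (ZMod a) _ = Int.castRingHom (ZMod a) _
  rw [RingHom.map_det, RingHom.map_det]
  congr 1
  have hzero : ((a : ℕ) : Matrix (Module.Free.ChooseBasisIndex ℤ (𝓞 K))
      (Module.Free.ChooseBasisIndex ℤ (𝓞 K)) (ZMod a)) = 0 := by
    ext i j
    rw [Matrix.natCast_apply]
    split_ifs <;> simp
  rw [sub_eq_iff_eq_add'.mp hz, map_add, map_mul, map_natCast, map_add, map_mul, map_natCast,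
    hzero, zero_mul, add_zero]

section Weight

variable {m : ℕ} (χ : DirichletCharacter ℂ m) (k : ℕ)

/-- The weight `χ (absNorm I / k)`. -/
def normWeight (I : Ideal (𝓞 K)) : ℂ := χ ((Ideal.absNorm I / k : ℕ) : ZMod m)

lemma norm_normWeight_le (I : Ideal (𝓞 K)) : ‖normWeight K χ k I‖ ≤ 1 :=
  DirichletCharacter.norm_le_one χ _

lemma chi_natAbs (hχ : χ.Even) (z : ℤ) : χ ((z.natAbs : ℕ) : ZMod m) = χ (z : ZMod m) := by
  rcases Int.natAbs_eq z with h | h <;> conv_rhs => rw [h]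
  · rw [Int.cast_natCast]
  · rw [Int.cast_neg, Int.cast_natCast, hχ.eval_neg]

lemma normWeight_span_congr (hχ : χ.Even) (hk : k ≠ 0) {x y : 𝓞 K}
    (hx : (k : ℤ) ∣ Algebra.norm ℤ x) (hy : (k : ℤ) ∣ Algebra.norm ℤ y)
    (h : ((m * k : ℕ) : 𝓞 K) ∣ x - y) :
    normWeight K χ k (Ideal.span {x}) = normWeight K χ k (Ideal.span {y}) := by
  obtain ⟨u, hu⟩ := hx
  obtain ⟨v, hv⟩ := hy
  have hc := norm_cast_eq_of_sub_dvd K (m * k) h
  rw [ZMod.intCast_eq_intCast_iff_dvd_sub, hu, hv, ← mul_sub, Nat.cast_mul, mul_comm (m : ℤ),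
    mul_dvd_mul_iff_left (Int.natCast_ne_zero.mpr hk)] at hc
  have hdiv : ∀ (z t : ℤ), z = k * t → z.natAbs / k = t.natAbs := fun z t hzt ↦ by
    rw [hzt, Int.natAbs_mul, Int.natAbs_natCast, Nat.mul_div_cancel_left _ (Nat.pos_of_ne_zero hk)]
  rw [normWeight, normWeight, Ideal.absNorm_span_singleton, Ideal.absNorm_span_singleton,
    hdiv _ _ hu, hdiv _ _ hv, chi_natAbs χ hχ, chi_natAbs χ hχ,
    (ZMod.intCast_eq_intCast_iff_dvd_sub u v m).mpr hc]

end Weight

/-- A fixed ideal in each inverse class. -/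
def classRep (c : ClassGroup (𝓞 K)) : (Ideal (𝓞 K))⁰ := (ClassGroup.mk0_surjective c⁻¹).choose

lemma mk0_classRep (c : ClassGroup (𝓞 K)) : ClassGroup.mk0 (classRep K c) = c⁻¹ :=
  (ClassGroup.mk0_surjective c⁻¹).choose_spec

/-- Norm of the fixed ideal of a class. -/
def repNorm (c : ClassGroup (𝓞 K)) : ℕ := Ideal.absNorm (classRep K c : Ideal (𝓞 K))

lemma repNorm_ne_zero (c : ClassGroup (𝓞 K)) : repNorm K c ≠ 0 :=
  Ideal.absNorm_ne_zero_of_nonZeroDivisors _

variable (D : ℕ) {m : ℕ} (χ : DirichletCharacter ℂ m)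

open Classical in
/-- The periodic weight on `𝓞 K` attached to a class. -/
def classWeight (c : ClassGroup (𝓞 K)) (x : 𝓞 K) : ℂ :=
  if x ∈ (classRep K c : Ideal (𝓞 K)) then normWeight K χ (repNorm K c) (Ideal.span {x}) else 0

lemma classWeight_add_mul (hχ : χ.Even) (hD : ∀ c, m * repNorm K c ∣ D)
    (c : ClassGroup (𝓞 K)) (x y : 𝓞 K) (hy : y ∈ Ideal.span {(D : 𝓞 K)}) :
    classWeight K χ c (x + y) = classWeight K χ c x := by
  rw [Ideal.mem_span_singleton] at hy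
  have hDk : ((m * repNorm K c : ℕ) : 𝓞 K) ∣ y := (map_dvd (Nat.castRingHom (𝓞 K)) (hD c)).trans hy
  have hyJ : y ∈ (classRep K c : Ideal (𝓞 K)) := by
    obtain ⟨t, ht⟩ := hDk
    rw [ht, Nat.cast_mul, mul_assoc]
    exact Ideal.mul_mem_left _ _ (Ideal.mul_mem_right _ _ (Ideal.absNorm_mem _))
  unfold classWeight
  by_cases hx : x ∈ (classRep K c : Ideal (𝓞 K))
  · rw [if_pos hx, if_pos (Ideal.add_mem _ hx hyJ)]
    exact normWeight_span_congr K χ _ hχ (repNorm_ne_zero K c)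
      (Ideal.absNorm_dvd_norm_of_mem (Ideal.add_mem _ hx hyJ)) (Ideal.absNorm_dvd_norm_of_mem hx)
      (by rwa [add_sub_cancel_left])
  · rw [if_neg hx, if_neg fun h ↦ hx ((Ideal.add_mem_iff_left _ hyJ).mp h)]

/-- The lattice sum over `D 𝓞 K`, independent of the character. -/
def latticeZ (s : ℝ) : ℝ :=
  ∑' y : Ideal.span {(D : 𝓞 K)}, cutoff K s (emb K (y : 𝓞 K))

/-- Splitting a periodically weighted lattice sum along residues modulo `D`. -/
lemma exists_periodic_split (hD : D ≠ 0) (V : 𝓞 K → ℂ)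
    (hV : ∀ x y, y ∈ Ideal.span {(D : 𝓞 K)} → V (x + y) = V x) :
    ∃ (T : Finset (𝓞 K)) (H : ℝ → ℂ), (0 : 𝓞 K) ∈ T ∧ ContinuousOn H (Set.Icc 1 2) ∧
      ∀ s ∈ Set.Ioc (1 : ℝ) 2, (∑' x : 𝓞 K, V x * (cutoff K s (emb K x) : ℂ))
        = (∑ d ∈ T, V d) * (latticeZ K D s : ℂ) + H s := by
  classical
  set J : Ideal (𝓞 K) := Ideal.span {(D : 𝓞 K)} with hJdef
  have hJ : J ≠ ⊥ := by
    rw [hJdef, ne_eq, Ideal.span_singleton_eq_bot]
    exact_mod_cast hD
  have : Finite (𝓞 K ⧸ J) := Ring.HasFiniteQuotients.finiteQuotient hJ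
  have := Fintype.ofFinite (𝓞 K ⧸ J)
  let out : 𝓞 K ⧸ J → 𝓞 K := fun q ↦ if q = 0 then 0 else Quotient.out q
  have hout : ∀ q, Ideal.Quotient.mk J (out q) = q := fun q ↦ by
    by_cases hq : q = 0
    · simp [out, hq]
    · simp only [out, if_neg hq]; exact Quotient.out_eq q
  let e : (𝓞 K ⧸ J) × J → 𝓞 K := fun p ↦ out p.1 + (p.2 : 𝓞 K)
  have hmk : ∀ p, Ideal.Quotient.mk J (e p) = p.1 := fun p ↦ by
    simp [e, map_add, hout, Ideal.Quotient.eq_zero_iff_mem.mpr p.2.2]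
  have he : Function.Bijective e := by
    refine ⟨fun a b hab ↦ ?_, fun x ↦ ?_⟩
    · have h1 : a.1 = b.1 := by rw [← hmk a, ← hmk b, hab]
      refine Prod.ext h1 (Subtype.ext ?_)
      simp only [e, h1] at hab
      exact add_left_cancel hab
    · refine ⟨(Ideal.Quotient.mk J x, ⟨x - out (Ideal.Quotient.mk J x), ?_⟩), by simp [e]⟩
      rw [← Ideal.Quotient.mk_eq_mk_iff_sub_mem]
      exact (hout _).symm
  have hinj : Function.Injective out := fun a b h ↦ by rw [← hout a, h, hout]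
  choose g hg hgb using fun q : 𝓞 K ⧸ J ↦ exists_translate_majorant K J (out q)
  let Δ : (𝓞 K ⧸ J) → J → ℝ → ℂ := fun q y s ↦
    ((cutoff K s (emb K (out q + (y : 𝓞 K))) - cutoff K s (emb K (y : 𝓞 K)) : ℝ) : ℂ)
  refine ⟨Finset.univ.image out, fun s ↦ ∑ q, V (out q) * ∑' y : J, Δ q y s,
    Finset.mem_image.mpr ⟨0, Finset.mem_univ _, if_pos rfl⟩, ?_, fun s hs ↦ ?_⟩
  · refine continuousOn_finsetSum _ fun q _ ↦ continuousOn_const.mul ?_
    refine continuousOn_tsum (fun y ↦ ?_) (hg q) fun y s hs ↦ ?_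
    · refine Complex.continuous_ofReal.comp_continuousOn (ContinuousOn.sub ?_ ?_) <;>
        exact (continuousOn_cutoff K _).mono fun s hs ↦ Set.mem_Ioi.mpr (by linarith [hs.1])
    · rw [Complex.norm_real]
      exact hgb q s hs y
  · have hs1 : 1 < s := hs.1
    have hjoint : Summable fun p : (𝓞 K ⧸ J) × J ↦
        V (e p) * (cutoff K s (emb K (e p)) : ℂ) := by
      refine Summable.of_norm_bounded
        (((summable_cutoff K hs1).comp_injective he.1).mul_left (∑ q, ‖V (out q)‖)) fun p ↦ ?_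
      simp only [e, hV _ _ p.2.2, norm_mul, Complex.norm_real, Function.comp_apply,
        Real.norm_eq_abs, abs_of_nonneg (cutoff_nonneg _ _)]
      exact mul_le_mul_of_nonneg_right (Finset.single_le_sum (f := fun q ↦ ‖V (out q)‖)
        (fun q _ ↦ norm_nonneg _) (Finset.mem_univ _)) (cutoff_nonneg _ _)
    rw [← (Equiv.ofBijective e he).tsum_eq]
    simp only [Equiv.ofBijective_apply]
    rw [hjoint.tsum_prod, tsum_fintype, Finset.sum_image hinj.injOn, Finset.sum_mul,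
      ← Finset.sum_add_distrib]
    refine Finset.sum_congr rfl fun q _ ↦ ?_
    simp only [e, hV _ _ (Subtype.prop _)]
    rw [tsum_mul_left, ← mul_add]
    congr 1
    have hsum1 : Summable fun y : J ↦ cutoff K s (emb K (out q + (y : 𝓞 K))) :=
      (summable_cutoff K hs1).comp_injective fun a b hab ↦ Subtype.ext (add_left_cancel hab)
    have hsum2 : Summable fun y : J ↦ cutoff K s (emb K (y : 𝓞 K)) :=
      (summable_cutoff K hs1).comp_injective Subtype.val_injective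
    simp only [Δ, ← Complex.ofReal_tsum, latticeZ, hsum1.tsum_sub hsum2]
    push_cast
    rw [← hJdef]
    ring

/-- The L-series as a sum over nonzero ideals. -/
lemma LSeries_chiCoeff_eq_tsum {s : ℝ} (hs : 1 < s) :
    LSeries (chiCoeff K χ) s
      = ∑' I : (Ideal (𝓞 K))⁰, χ ((Ideal.absNorm (I : Ideal (𝓞 K)) : ℕ) : ZMod m)
          * (idealTerm K s I : ℂ) := by
  let N : (Ideal (𝓞 K))⁰ → ℕ := fun I ↦ Ideal.absNorm (I : Ideal (𝓞 K))
  let F : (Ideal (𝓞 K))⁰ → ℂ := fun I ↦ χ ((N I : ℕ) : ZMod m) * (idealTerm K s I : ℂ)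
  have hF : Summable F := by
    refine Summable.of_norm_bounded (summable_idealTerm K hs) fun I ↦ ?_
    rw [norm_mul, Complex.norm_real, Real.norm_of_nonneg (ExtVanishing.idealTerm_nonneg K s I)]
    exact mul_le_of_le_one_left (ExtVanishing.idealTerm_nonneg K s I)
      (DirichletCharacter.norm_le_one χ _)
  change _ = ∑' I, F I
  rw [← (Equiv.sigmaFiberEquiv N).tsum_eq]
  change _ = ∑' p, (F ∘ Equiv.sigmaFiberEquiv N) p
  rw [Summable.tsum_sigma ((Equiv.sigmaFiberEquiv N).summable_iff.mpr hF), LSeries]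
  refine tsum_congr fun n ↦ ?_
  rw [LSeries.term_def₀ (chiCoeff_zero K χ)]
  rcases eq_or_ne n 0 with rfl | hn
  · have : IsEmpty {I : (Ideal (𝓞 K))⁰ // N I = 0} :=
      ⟨fun I ↦ Ideal.absNorm_ne_zero_of_nonZeroDivisors I.1 I.2⟩
    simp
  · have hfin : Finite {I : Ideal (𝓞 K) // Ideal.absNorm I = n} :=
      (Ideal.finite_setOfPred_absNorm_eq n).to_subtype
    let e : {I : (Ideal (𝓞 K))⁰ // N I = n} ≃ {I : Ideal (𝓞 K) // Ideal.absNorm I = n} :=
      { toFun := fun I ↦ ⟨I.1, I.2⟩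
        invFun := fun I ↦ ⟨⟨I.1, mem_nonZeroDivisors_of_ne_zero fun h ↦ hn (by
          rw [← I.2, h, Ideal.absNorm_eq_zero_iff, Ideal.zero_eq_bot])⟩, I.2⟩
        left_inv := fun I ↦ rfl
        right_inv := fun I ↦ rfl }
    have : ∀ I : {I : (Ideal (𝓞 K))⁰ // N I = n},
        F (Equiv.sigmaFiberEquiv N ⟨n, I⟩) = χ ((n : ℕ) : ZMod m) * (n : ℂ) ^ (-(s : ℂ)) := fun I ↦ by
      show χ ((N I.1 : ℕ) : ZMod m) * (((N I.1 : ℝ) ^ (-s) : ℝ) : ℂ) = _
      rw [I.2, Complex.ofReal_cpow (Nat.cast_nonneg _)]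
      push_cast
      rfl
    simp only [Function.comp_apply]
    rw [tsum_congr this, tsum_const, Nat.card_congr e, nsmul_eq_mul, chiCoeff_of_ne_zero _ _ hn]
    simp only [idealCount]
    ring

/-- The entire coefficient in front of `latticeZ`. -/
def leadCoeff (T : ClassGroup (𝓞 K) → Finset (𝓞 K)) (s : ℝ) : ℂ :=
  ∑ c, ((repNorm K c : ℂ) ^ (s : ℂ)) * ((Units.torsionOrder K : ℂ)⁻¹ * ∑ d ∈ T c, classWeight K χ c d)

/-- `L(s) = A(s) Z(s) + H(s)`. -/
theorem exists_LSeries_eq_lead (hχ : χ.Even) (hD0 : D ≠ 0) (hD : ∀ c, m * repNorm K c ∣ D) :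
    ∃ (T : ClassGroup (𝓞 K) → Finset (𝓞 K)) (H : ℝ → ℂ), (∀ c, (0 : 𝓞 K) ∈ T c) ∧
      ContinuousOn H (Set.Icc 1 2) ∧ ∀ s ∈ Set.Ioc (1 : ℝ) 2,
        LSeries (chiCoeff K χ) s = leadCoeff K χ T s * (latticeZ K D s : ℂ) + H s := by
  classical
  choose T Hc hT hHc hsplit using fun c ↦ exists_periodic_split K D hD0 (classWeight K χ c)
    (classWeight_add_mul K D χ hχ hD c)
  refine ⟨T, fun s ↦ ∑ c, ((repNorm K c : ℂ) ^ (s : ℂ)) * ((Units.torsionOrder K : ℂ)⁻¹ * Hc c s),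
    hT, ?_, fun s hs ↦ ?_⟩
  · refine continuousOn_finsetSum _ fun c _ ↦ ContinuousOn.mul ?_ (continuousOn_const.mul (hHc c))
    exact (Complex.continuous_ofReal.const_cpow
      (Or.inl (Nat.cast_ne_zero.mpr (repNorm_ne_zero K c)))).continuousOn
  · have hs1 : 1 < s := hs.1
    rw [LSeries_chiCoeff_eq_tsum K χ hs1, leadCoeff, Finset.sum_mul, ← Finset.sum_add_distrib]
    have hF : Summable fun I : (Ideal (𝓞 K))⁰ ↦
        χ ((Ideal.absNorm (I : Ideal (𝓞 K)) : ℕ) : ZMod m) * (idealTerm K s I : ℂ) := by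
      refine Summable.of_norm_bounded (summable_idealTerm K hs1) fun I ↦ ?_
      rw [norm_mul, Complex.norm_real, Real.norm_of_nonneg (ExtVanishing.idealTerm_nonneg K s I)]
      exact mul_le_of_le_one_left (ExtVanishing.idealTerm_nonneg K s I)
        (DirichletCharacter.norm_le_one χ _)
    rw [← (Equiv.sigmaFiberEquiv (ClassGroup.mk0 (R := 𝓞 K))).tsum_eq,
      Summable.tsum_sigma (by
        exact ((Equiv.sigmaFiberEquiv (ClassGroup.mk0 (R := 𝓞 K))).summable_iff).mpr hF),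
      tsum_fintype]
    refine Finset.sum_congr rfl fun c _ ↦ ?_
    simp only [Equiv.sigmaFiberEquiv_apply]
    obtain ⟨-, hid⟩ := weighted_classZeta_identity K (mk0_classRep K c) hs1
      (normWeight K χ (repNorm K c)) (norm_normWeight_le K χ _)
    have hW : ∀ I : ClassIdeals K c,
        normWeight K χ (repNorm K c) ((I.1 : Ideal (𝓞 K)) * (classRep K c : Ideal (𝓞 K)))
          = χ ((Ideal.absNorm (I.1 : Ideal (𝓞 K)) : ℕ) : ZMod m) := fun I ↦ by
      rw [normWeight, map_mul, repNorm,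
        Nat.mul_div_cancel _ (Ideal.absNorm_pos_of_nonZeroDivisors _)]
    simp only [hW] at hid
    have hsub : (∑' x : (classRep K c : Ideal (𝓞 K)), normWeight K χ (repNorm K c)
          (Ideal.span {(x : 𝓞 K)}) * (cutoff K s (emb K (x : 𝓞 K)) : ℂ))
        = ∑' x : 𝓞 K, classWeight K χ c x * (cutoff K s (emb K x) : ℂ) := by
      refine Eq.trans (tsum_congr fun x ↦ ?_) (tsum_subtype_eq_of_support_subset
        (s := ((classRep K c : Ideal (𝓞 K)) : Set (𝓞 K))) fun x hx ↦ ?_)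
      · exact (congrArg (· * _) (if_pos x.2)).symm
      · by_contra h
        exact hx ((congrArg (· * _) (if_neg (fun h' ↦ h h'))).trans (zero_mul _))
    rw [hsub, hsplit c s hs] at hid
    have hw : (Units.torsionOrder K : ℂ) ≠ 0 := Nat.cast_ne_zero.mpr (Units.torsionOrder_ne_zero K)
    have hk : ((repNorm K c : ℂ) ^ (s : ℂ))
        * (((Ideal.absNorm (classRep K c : Ideal (𝓞 K)) : ℝ) ^ (-s) : ℝ) : ℂ) = 1 := by
      rw [Complex.ofReal_cpow (Nat.cast_nonneg _), Complex.ofReal_neg, Complex.ofReal_natCast,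
        Complex.cpow_neg, repNorm, mul_inv_cancel₀]
      exact (Complex.cpow_ne_zero_iff_of_exponent_ne_zero
        (Complex.ofReal_ne_zero.mpr (by linarith))).mpr
          (Nat.cast_ne_zero.mpr (repNorm_ne_zero K c))
    set S := ∑' I : ClassIdeals K c, χ ((Ideal.absNorm (I.1 : Ideal (𝓞 K)) : ℕ) : ZMod m)
      * (idealTerm K s I.1 : ℂ)
    calc S = ((repNorm K c : ℂ) ^ (s : ℂ)) * ((Units.torsionOrder K : ℂ)⁻¹ * ((Units.torsionOrder K : ℂ)
          * (((Ideal.absNorm (classRep K c : Ideal (𝓞 K)) : ℝ) ^ (-s) : ℝ) : ℂ) * S)) := by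
          rw [← mul_assoc (Units.torsionOrder K : ℂ)⁻¹, ← mul_assoc (Units.torsionOrder K : ℂ)⁻¹,
            inv_mul_cancel₀ hw, one_mul, ← mul_assoc, hk, one_mul]
      _ = _ := by rw [← hid]; ring

lemma hasDerivAt_leadCoeff (T : ClassGroup (𝓞 K) → Finset (𝓞 K)) :
    ∃ A' : ℂ, HasDerivAt (leadCoeff K χ T) A' 1 := by
  unfold leadCoeff
  exact ⟨_, HasDerivAt.fun_sum fun c _ ↦ HasDerivAt.mul_const
    ((HasDerivAt.const_cpow (hasDerivAt_id ((1 : ℝ) : ℂ))
      (Or.inl (Nat.cast_ne_zero.mpr (repNorm_ne_zero K c)))).comp_ofReal) _⟩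

/-- The L-series of `χ ∘ absNorm` for an even `χ` either has a simple pole or a finite limit. -/
theorem lSeriesDichotomy_of_even [NeZero m] (hχ : χ.Even) : LSeriesDichotomy K χ := by
  classical
  set D : ℕ := m * ∏ c : ClassGroup (𝓞 K), repNorm K c
  have hD0 : D ≠ 0 := mul_ne_zero (NeZero.ne m)
    (Finset.prod_ne_zero_iff.mpr fun c _ ↦ repNorm_ne_zero K c)
  have hD : ∀ c, m * repNorm K c ∣ D := fun c ↦
    mul_dvd_mul_left m (Finset.dvd_prod_of_mem _ (Finset.mem_univ c))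
  have hD1 : ∀ c, 1 * repNorm K c ∣ D := fun c ↦
    (mul_dvd_mul_right (one_dvd m) _).trans (hD c)
  set χ₁ : DirichletCharacter ℂ 1 := 1 with hχ₁
  have hχ₁e : χ₁.Even := MulChar.one_apply (isUnit_of_subsingleton _)
  obtain ⟨T, H, -, hH, hL⟩ := exists_LSeries_eq_lead K D χ hχ hD0 hD
  obtain ⟨T₁, H₁, hT₁, hH₁, hL₁⟩ := exists_LSeries_eq_lead K D χ₁ hχ₁e hD0 hD1
  have hlimH : ∀ {G : ℝ → ℂ}, ContinuousOn G (Set.Icc 1 2) →
      Tendsto G (𝓝[>] 1) (𝓝 (G 1)) := fun {G} hG ↦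
    (hG 1 (by simp)).tendsto.mono_left
      (nhdsWithin_le_of_mem (mem_of_superset Ioc_mem_nhdsGT_one Set.Ioc_subset_Icc_self))
  have hsub : Tendsto (fun s : ℝ ↦ (s : ℂ) - 1) (𝓝[>] 1) (𝓝 0) := by
    have : Tendsto (fun s : ℝ ↦ (s : ℂ) - 1) (𝓝 1) (𝓝 (((1 : ℝ) : ℂ) - 1)) :=
      (Complex.continuous_ofReal.sub continuous_const).tendsto 1
    rw [Complex.ofReal_one, sub_self] at this
    exact this.mono_left nhdsWithin_le_nhds
  obtain ⟨A₁', hA₁'⟩ := hasDerivAt_leadCoeff K χ₁ T₁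
  obtain ⟨A', hA'⟩ := hasDerivAt_leadCoeff K χ T
  -- the coefficient of the trivial character is positive
  have hpos : leadCoeff K χ₁ T₁ 1 ≠ 0 := by
    have hval : ∀ c, ∀ d : 𝓞 K, classWeight K χ₁ c d
        = (((if d ∈ (classRep K c : Ideal (𝓞 K)) then 1 else 0 : ℕ)) : ℂ) := fun c d ↦ by
      unfold classWeight normWeight
      split_ifs
      · rw [hχ₁, MulChar.one_apply (isUnit_of_subsingleton _), Nat.cast_one]
      · simp
    have heq : leadCoeff K χ₁ T₁ 1 = (((∑ c, repNorm K c *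
        ∑ d ∈ T₁ c, (if d ∈ (classRep K c : Ideal (𝓞 K)) then 1 else 0) : ℕ)) : ℂ)
          * (Units.torsionOrder K : ℂ)⁻¹ := by
      simp only [leadCoeff, hval, Complex.ofReal_one, Complex.cpow_one, Nat.cast_sum,
        Nat.cast_mul, Finset.sum_mul]
      exact Finset.sum_congr rfl fun c _ ↦ by ring
    rw [heq]
    refine mul_ne_zero (Nat.cast_ne_zero.mpr (Nat.pos_iff_ne_zero.mp ?_))
      (inv_ne_zero (Nat.cast_ne_zero.mpr (Units.torsionOrder_ne_zero K)))
    refine Finset.sum_pos (fun c _ ↦ Nat.mul_pos (Nat.pos_of_ne_zero (repNorm_ne_zero K c)) ?_)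
      Finset.univ_nonempty
    exact Finset.sum_pos' (fun _ _ ↦ Nat.zero_le _) ⟨0, hT₁ c, by simp⟩
  -- the pole of the lattice sum
  set κ : ℂ := (dedekindZeta_residue K : ℂ) / leadCoeff K χ₁ T₁ 1
  have hκ : κ ≠ 0 := div_ne_zero (Complex.ofReal_ne_zero.mpr (dedekindZeta_residue_ne_zero K)) hpos
  have hZ : Tendsto (fun s : ℝ ↦ ((s : ℂ) - 1) * (latticeZ K D s : ℂ)) (𝓝[>] 1) (𝓝 κ) := by
    have hA₁ : Tendsto (leadCoeff K χ₁ T₁) (𝓝[>] 1) (𝓝 (leadCoeff K χ₁ T₁ 1)) :=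
      hA₁'.continuousAt.tendsto.mono_left nhdsWithin_le_nhds
    have h0 : Tendsto (fun s : ℝ ↦ (((s : ℂ) - 1) * dedekindZeta K s - ((s : ℂ) - 1) * H₁ s)
        / leadCoeff K χ₁ T₁ s) (𝓝[>] 1) (𝓝 κ) := by
      have := ((tendsto_sub_one_mul_dedekindZeta_nhdsGT K).sub (hsub.mul (hlimH hH₁))).div hA₁ hpos
      simpa [κ, Pi.div_def] using this
    refine h0.congr' ?_
    filter_upwards [Ioc_mem_nhdsGT_one, hA₁.eventually_ne hpos] with s hs hne
    rw [← LSeries_chiCoeff_one, ← hχ₁, hL₁ s hs]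
    field_simp
    ring
  refine ⟨leadCoeff K χ T 1 * κ, ?_, fun h0 ↦ ?_⟩
  · have hA : Tendsto (leadCoeff K χ T) (𝓝[>] 1) (𝓝 (leadCoeff K χ T 1)) :=
      hA'.continuousAt.tendsto.mono_left nhdsWithin_le_nhds
    have := (hA.mul hZ).add (hsub.mul (hlimH hH))
    rw [zero_mul, add_zero] at this
    refine this.congr' ?_
    filter_upwards [Ioc_mem_nhdsGT_one] with s hs
    rw [hL s hs]; ring
  · have hA0 : leadCoeff K χ T 1 = 0 := (mul_eq_zero.mp h0).resolve_right hκ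
    have hslope : Tendsto (slope (leadCoeff K χ T) 1) (𝓝[>] 1) (𝓝 A') :=
      (hasDerivAt_iff_tendsto_slope.mp hA').mono_left
        (nhdsWithin_mono _ fun s hs ↦ (Set.mem_Ioi.mp hs).ne')
    refine ⟨A' * κ + H 1, ((hslope.mul hZ).add (hlimH hH)).congr' ?_⟩
    filter_upwards [Ioc_mem_nhdsGT_one] with s hs
    rw [hL s hs, slope_def_module, hA0, sub_zero, Complex.real_smul, Complex.ofReal_inv,
      Complex.ofReal_sub, Complex.ofReal_one]
    have : (s : ℂ) - 1 ≠ 0 := by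
      rw [← Complex.ofReal_one, ← Complex.ofReal_sub]
      exact Complex.ofReal_ne_zero.mpr (sub_pos.mpr hs.1).ne'
    field_simp

end Fermat.Agent.Chebotarev

end
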