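import Fermat.Agent.Frobenius.Exists
import Fermat.Agent.Chebotarev.ClassLSeries
import Mathlib.FieldTheory.Normal.Closure
import Mathlib.NumberTheory.Cyclotomic.Basic
import Mathlib.NumberTheory.LSeries.PrimesInAP
import Mathlib.RingTheory.Polynomial.Cyclotomic.Roots
import Mathlib.RingTheory.ZMod.UnitsCyclic

/-!
# Chebotarev density theorem, existence form

For every number field `L` inside an algebraic closure of `ℚ`, every Galois element `g` and
every finite set of primes `S` there is a prime `ℓ ∉ S`, a place `A` over `ℓ` and a Frobenius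
element `σ` at `A` agreeing with `g` on `L`.
-/

set_option autoImplicit false

noncomputable section

namespace Fermat.Agent.Chebotarev

open NumberField
open scoped Pointwise

local notation "Ω" => AlgebraicClosure ℚ
local notation "Γ" => (AlgebraicClosure ℚ) ≃ₐ[ℚ] (AlgebraicClosure ℚ)

-- `IntermediateField` subtypes need this spelled out because of the two `ℚ`-algebra structures.
local instance isAlgebraicQbar_cheb : Algebra.IsAlgebraic ℚ (AlgebraicClosure ℚ) :=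
  AlgebraicClosure.isAlgebraic ℚ
local instance isAlgClosureQbar_cheb : IsAlgClosure ℚ (AlgebraicClosure ℚ) :=
  ⟨inferInstance, inferInstance⟩

/-- The absolute Galois group surjects onto `(ℤ / m)ˣ`. -/
lemma autToPow_surjective {m : ℕ} [NeZero m] {ζ : Ω} (hζ : IsPrimitiveRoot ζ m) :
    Function.Surjective (hζ.autToPow ℚ (S := Ω)) := by
  intro a
  have hprim : IsPrimitiveRoot (ζ ^ (a : ZMod m).val) m :=
    hζ.pow_of_coprime _ (ZMod.val_coe_unit_coprime a)
  have h : minpoly ℚ (ζ ^ (a : ZMod m).val) = minpoly ℚ ζ := by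
    rw [← Polynomial.cyclotomic_eq_minpoly_rat hprim (NeZero.pos m),
      ← Polynomial.cyclotomic_eq_minpoly_rat hζ (NeZero.pos m)]
  have : Normal ℚ Ω := IsAlgClosure.normal ℚ Ω
  obtain ⟨σ, hσ⟩ := MulAction.mem_orbit_iff.mp ((Normal.minpoly_eq_iff_mem_orbit Ω).mp h)
  refine ⟨σ, Units.ext ?_⟩
  have hspec : ζ ^ ((hζ.autToPow ℚ σ : (ZMod m)ˣ) : ZMod m).val = σ ζ := hζ.autToPow_spec ℚ σ
  have := hζ.pow_inj (ZMod.val_lt _) (ZMod.val_lt _) (hspec.trans hσ)
  rw [← ZMod.natCast_zmod_val ((hζ.autToPow ℚ σ : (ZMod m)ˣ) : ZMod m), this, ZMod.natCast_zmod_val]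

/-- A coset of a subgroup of index at most `d` in a cyclic group contains `γ ^ e` with
`1 ≤ e ≤ d`. -/
lemma exists_pow_mem_coset {A : Type*} [CommGroup A] [Finite A] {γ : A}
    (hγ : ∀ x : A, x ∈ Subgroup.zpowers γ) (W : Subgroup A) {d : ℕ} (hW : W.index ≤ d) (c : A) :
    ∃ e : ℕ, 1 ≤ e ∧ e ≤ d ∧ c⁻¹ * γ ^ e ∈ W := by
  obtain ⟨e₀, he₀⟩ := Submonoid.mem_powers_iff _ _ |>.mp (mem_powers_iff_mem_zpowers.mpr (hγ c))
  have hi : 0 < W.index := Nat.pos_of_ne_zero Subgroup.index_ne_zero_of_finite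
  have hk : ∀ k : ℕ, γ ^ (W.index * k) ∈ W := fun k ↦ by
    rw [pow_mul]
    exact W.pow_mem (W.pow_index_mem γ) k
  by_cases h0 : e₀ % W.index = 0
  · refine ⟨W.index, hi, hW, W.mul_mem (W.inv_mem ?_) (W.pow_index_mem γ)⟩
    obtain ⟨k, hk'⟩ := Nat.dvd_of_mod_eq_zero h0
    rw [← he₀, hk']
    exact hk k
  · refine ⟨e₀ % W.index, Nat.pos_of_ne_zero h0, (Nat.mod_lt _ hi).le.trans hW, ?_⟩
    have : c⁻¹ * γ ^ (e₀ % W.index) = (γ ^ (W.index * (e₀ / W.index)))⁻¹ := by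
      rw [← he₀, eq_inv_iff_mul_eq_one, mul_assoc, ← pow_add, Nat.mod_add_div, inv_mul_cancel]
    rw [this]
    exact W.inv_mem (hk _)

/-- Squares in `(ℤ/4)ˣ` are trivial and `-1` is not. -/
lemma sq_ne_neg_one_four (z : (ZMod 4)ˣ) : z ^ 2 ≠ -1 := by
  revert z; decide

/-- The choice of the auxiliary cyclotomic modulus and of the lift of a Galois element. -/
lemma exists_separated_lift (K : IntermediateField ℚ Ω) [FiniteDimensional ℚ K] [Normal ℚ K]
    (g : Γ) :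
    ∃ (m : ℕ) (_ : NeZero m) (ζ : Ω) (hζ : IsPrimitiveRoot ζ m) (σ : Γ),
      (∀ a ∈ K, σ a = g a) ∧
      (∀ j : ℤ, (hζ.autToPow ℚ σ) ^ j ≠ -1) ∧
      (∀ j : ℤ, (hζ.autToPow ℚ σ) ^ j = 1 → ∀ a ∈ K, (σ ^ j) a = a) := by
  have : Normal ℚ Ω := IsAlgClosure.normal ℚ Ω
  have : NumberField K := { to_charZero := inferInstance, to_finiteDimensional := inferInstance }
  set res : Γ →* (K ≃ₐ[ℚ] K) := AlgEquiv.restrictNormalHom K
  set d := Nat.card (K ≃ₐ[ℚ] K) with hd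
  have hd0 : d ≠ 0 := Nat.card_pos.ne'
  obtain ⟨p, -, hp, hmod⟩ :=
    Nat.forall_exists_prime_gt_and_modEq 0 (q := 4 * d * d.factorial) (a := 1)
      (by simp [hd0, Nat.factorial_ne_zero]) (Nat.coprime_one_left _)
  have hpd : 4 * d * d.factorial ∣ p - 1 := (Nat.modEq_iff_dvd' hp.one_le).mp hmod.symm
  have : Fact p.Prime := ⟨hp⟩
  have : NeZero (4 * p) := ⟨mul_ne_zero four_ne_zero hp.ne_zero⟩
  obtain ⟨ζ, hζ⟩ := HasEnoughRootsOfUnity.exists_primitiveRoot Ω (4 * p)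
  set cyc : Γ →* (ZMod (4 * p))ˣ := hζ.autToPow ℚ with hcyc
  set π : (ZMod (4 * p))ˣ →* (ZMod p)ˣ := ZMod.unitsMap (Dvd.intro_left 4 rfl)
  set π₄ : (ZMod (4 * p))ˣ →* (ZMod 4)ˣ := ZMod.unitsMap (Dvd.intro p rfl)
  obtain ⟨γ, hγ⟩ := IsCyclic.exists_generator (α := (ZMod p)ˣ)
  set f : Γ →* (ZMod p)ˣ := π.comp cyc
  have hf : Function.Surjective f :=
    (ZMod.unitsMap_surjective _).comp (autToPow_surjective hζ)
  have hindex : (res.ker.map f).index ≤ d := by
    refine le_trans (Nat.le_of_dvd ?_ (Subgroup.index_map_dvd _ hf)) (le_of_eq ?_)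
    · rw [Subgroup.index_ker, MonoidHom.range_eq_top.mpr (AlgEquiv.restrictNormalHom_surjective Ω)]
      exact Nat.card_pos
    · rw [Subgroup.index_ker, MonoidHom.range_eq_top.mpr (AlgEquiv.restrictNormalHom_surjective Ω),
        Subgroup.card_top]
  obtain ⟨e, he1, hed, hmem⟩ := exists_pow_mem_coset hγ _ hindex (f g)
  obtain ⟨w, hw, hwe⟩ := Subgroup.mem_map.mp hmem
  set σ := g * w with hσ
  have hres : res σ = res g := by rw [hσ, map_mul, MonoidHom.mem_ker.mp hw, mul_one]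
  have hfσ : f σ = γ ^ e := by rw [hσ, map_mul, hwe, mul_inv_cancel_left]
  have hq : 4 * d ∣ orderOf (γ ^ e) := by
    have hord : orderOf γ = p - 1 := by
      rw [orderOf_eq_card_of_forall_mem_zpowers hγ, Nat.card_eq_fintype_card, ZMod.card_units p]
    rw [orderOf_pow' γ (by omega), hord]
    obtain ⟨t, ht⟩ := hpd
    have hge : (p - 1).gcd e ∣ d.factorial :=
      (Nat.gcd_dvd_right _ _).trans (Nat.dvd_factorial (by omega) hed)
    obtain ⟨r, hr⟩ := hge
    have hgpos : 0 < (p - 1).gcd e := Nat.gcd_pos_of_pos_right _ (by omega)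
    refine ⟨r * t, Nat.div_eq_of_eq_mul_left hgpos ?_⟩
    calc p - 1 = 4 * d * d.factorial * t := ht
      _ = _ := by rw [hr]; ring
  have hzpow : ∀ j : ℤ, f (σ ^ j) = (γ ^ e) ^ j := fun j ↦ by rw [map_zpow, hfσ]
  refine ⟨4 * p, inferInstance, ζ, hζ, σ, fun a ha ↦ ?_, fun j hj ↦ ?_, fun j hj a ha ↦ ?_⟩
  · have h := congrArg (fun φ : K ≃ₐ[ℚ] K ↦ ((φ ⟨a, ha⟩ : K) : Ω)) hres
    exact (AlgEquiv.restrictNormal_commutes σ K ⟨a, ha⟩).symm.trans
      (h.trans (AlgEquiv.restrictNormal_commutes g K ⟨a, ha⟩))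
  · have h1 : (γ ^ e) ^ (2 * j) = 1 := by
      rw [← hzpow, map_zpow, show f σ = π (cyc σ) from rfl, ← map_zpow, mul_comm (2 : ℤ) j, zpow_mul,
        show (cyc σ) ^ j = -1 from hj, show ((-1 : (ZMod (4 * p))ˣ)) ^ (2 : ℤ) = 1 by
          rw [zpow_ofNat, neg_one_sq], map_one]
    have h2 : (orderOf (γ ^ e) : ℤ) ∣ 2 * j := orderOf_dvd_iff_zpow_eq_one.mpr h1
    obtain ⟨r, hr⟩ : Even j := by
      have h4 : (4 : ℤ) ∣ 2 * j :=
        (Int.natCast_dvd_natCast.mpr (dvd_trans (dvd_mul_right 4 d) hq)).trans h2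
      obtain ⟨s, hs⟩ := h4
      exact ⟨s, by omega⟩
    refine sq_ne_neg_one_four ((π₄ (cyc σ)) ^ r) ?_
    rw [← zpow_natCast, ← zpow_mul, ← map_zpow, show r * ((2 : ℕ) : ℤ) = j by push_cast; omega,
      show (cyc σ) ^ j = -1 from hj]
    refine Units.ext ?_
    simp [π₄, ZMod.unitsMap]
  · have h1 : (γ ^ e) ^ j = 1 := by
      rw [← hzpow, map_zpow, show f σ = π (cyc σ) from rfl, ← map_zpow,
        show (cyc σ) ^ j = 1 from hj, map_one]
    have h2 : (d : ℤ) ∣ j :=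
      (Int.natCast_dvd_natCast.mpr (dvd_trans (dvd_mul_left d 4) hq)).trans
        (orderOf_dvd_iff_zpow_eq_one.mpr h1)
    have h3 : res (σ ^ j) = 1 := by
      obtain ⟨r, rfl⟩ := h2
      rw [map_zpow, zpow_mul, zpow_natCast, hd, pow_card_eq_one', one_zpow]
    have h := congrArg (fun φ : K ≃ₐ[ℚ] K ↦ ((φ ⟨a, ha⟩ : K) : Ω)) h3
    exact (AlgEquiv.restrictNormal_commutes (σ ^ j) K ⟨a, ha⟩).symm.trans h

/-- Chebotarev, existence form, exactly: every element of the absolute Galois group agrees on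
a given number field with a Frobenius element outside a given finite set of primes. -/
theorem exists_isFrobeniusAt_eqOn (L : IntermediateField ℚ (AlgebraicClosure ℚ))
    [FiniteDimensional ℚ L] (g : AlgebraicClosure ℚ ≃ₐ[ℚ] AlgebraicClosure ℚ) (S : Finset ℕ) :
    ∃ ℓ : ℕ, ℓ.Prime ∧ ℓ ∉ S ∧ ∃ A : ValuationSubring (AlgebraicClosure ℚ),
      A.LiesOverPrime ℓ ∧ ∃ σ : AlgebraicClosure ℚ ≃ₐ[ℚ] AlgebraicClosure ℚ,
        A.IsFrobeniusAt σ ℓ ∧ ∀ a ∈ L, σ a = g a := by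
  have : Normal ℚ Ω := IsAlgClosure.normal ℚ Ω
  have : IsGalois ℚ Ω :=
    { to_isSeparable := Algebra.IsAlgebraic.isSeparable_of_perfectField, to_normal := inferInstance }
  let K := IntermediateField.normalClosure ℚ L Ω
  have hLK : L ≤ K := IntermediateField.le_normalClosure L
  have hKn : Normal ℚ K := normalClosure.normal ℚ L Ω
  have hKf : FiniteDimensional ℚ K := normalClosure.is_finiteDimensional ℚ L Ω
  obtain ⟨m, hm, ζ, hζ, σ, hσK, hneg, hone⟩ := exists_separated_lift K g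
  let Z : IntermediateField ℚ Ω := IntermediateField.adjoin ℚ {ζ}
  have : IsCyclotomicExtension {m} ℚ Z := hζ.intermediateField_adjoin_isCyclotomicExtension ℚ
  have : FiniteDimensional ℚ Z := IsCyclotomicExtension.finiteDimensional {m} ℚ Z
  have : IsGalois ℚ Z := IsCyclotomicExtension.isGalois {m} ℚ Z
  have hZn : Normal ℚ Z := IsGalois.to_normal
  let E : IntermediateField ℚ Ω := K ⊔ Z
  have hKE : K ≤ E := le_sup_left
  have hζE : ζ ∈ E := le_sup_right (α := IntermediateField ℚ Ω)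
    (IntermediateField.mem_adjoin_simple_self ℚ ζ)
  have : NumberField E := { to_charZero := inferInstance, to_finiteDimensional := inferInstance }
  have : IsGalois ℚ E :=
    { to_isSeparable := inferInstance, to_normal := @IntermediateField.normal_sup ℚ Ω _ _ _ K Z hKn hZn }
  let res : Γ →* (E ≃ₐ[ℚ] E) := AlgEquiv.restrictNormalHom E
  have hres : ∀ (τ : Γ) (x : E), ((res τ x : E) : Ω) = τ (x : Ω) := fun τ x ↦
    AlgEquiv.restrictNormal_commutes τ E x
  let z : E := ⟨ζ, hζE⟩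
  have hz : IsPrimitiveRoot z m :=
    IsPrimitiveRoot.of_map_of_injective (f := algebraMap E Ω) hζ (algebraMap E Ω).injective
  have hcompat : ∀ τ : Γ, hz.autToPow ℚ (res τ) = hζ.autToPow ℚ τ := by
    intro τ
    refine Units.ext ?_
    have h1 : z ^ ((hz.autToPow ℚ (res τ) : (ZMod m)ˣ) : ZMod m).val = res τ z :=
      hz.autToPow_spec ℚ (res τ)
    have h2 : ζ ^ ((hζ.autToPow ℚ τ : (ZMod m)ˣ) : ZMod m).val = τ ζ := hζ.autToPow_spec ℚ τ
    have h3 := congrArg (fun x : E ↦ (x : Ω)) h1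
    simp only [SubmonoidClass.coe_pow, hres, z] at h3
    have := hζ.pow_inj (ZMod.val_lt _) (ZMod.val_lt _) (h3.trans h2.symm)
    rw [← ZMod.natCast_zmod_val ((hz.autToPow ℚ (res τ) : (ZMod m)ˣ) : ZMod m), this,
      ZMod.natCast_zmod_val]
  set u := res σ with hu
  have hinj : ∀ h ∈ Subgroup.zpowers u, hz.autToPow ℚ h = 1 → h = 1 := by
    rintro _ ⟨j, rfl⟩ hj
    dsimp only at hj ⊢
    rw [hu, ← map_zpow] at hj ⊢
    rw [hcompat] at hj
    have hfix : E ≤ IntermediateField.fixedField (Subgroup.zpowers (σ ^ j)) := by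
      have hsub : ∀ x : Ω, (σ ^ j) x = x →
          x ∈ IntermediateField.fixedField (Subgroup.zpowers (σ ^ j)) := by
        intro x hx
        rw [IntermediateField.mem_fixedField_iff]
        intro h hh
        have hle : Subgroup.zpowers (σ ^ j) ≤ MulAction.stabilizer Γ x :=
          Subgroup.zpowers_le.mpr (MulAction.mem_stabilizer_iff.mpr hx)
        exact MulAction.mem_stabilizer_iff.mp (hle hh)
      refine sup_le (fun x hx ↦ hsub x (hone j (by rwa [← map_zpow]) x hx))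
        (IntermediateField.adjoin_le_iff.mpr ?_)
      rintro x rfl
      refine hsub _ ?_
      have hspec : x ^ ((hζ.autToPow ℚ (σ ^ j) : (ZMod m)ˣ) : ZMod m).val = (σ ^ j) x :=
        hζ.autToPow_spec ℚ (σ ^ j)
      rw [← hspec, ← pow_eq_pow_mod_of_one hζ hj]
    refine AlgEquiv.ext fun x ↦ Subtype.ext ?_
    rw [hres]
    exact (IntermediateField.mem_fixedField_iff _ _).mp (hfix x.2) _ (Subgroup.mem_zpowers _)
  have hneg' : ∀ h ∈ Subgroup.zpowers u, hz.autToPow ℚ h ≠ -1 := by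
    rintro _ ⟨j, rfl⟩
    dsimp only
    rw [hu, ← map_zpow, hcompat, map_zpow]
    exact hneg j
  -- Frobenius data
  choose A σp hA hσp using fun p : Nat.Primes ↦
    Frobenius.exists_liesOverPrime_and_isFrobeniusAt (L := Ω) p.2
  let toΩ : 𝓞 E →+* Ω := (algebraMap E Ω).comp (algebraMap (𝓞 E) E)
  have hmemA : ∀ (p : Nat.Primes) (x : 𝓞 E), toΩ x ∈ (A p).toSubring := fun p x ↦
    Frobenius.mem_of_isIntegral (A p)
      (x.isIntegral_coe.map (E.val.restrictScalars ℤ))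
  let Qf : Nat.Primes → Ideal (𝓞 E) := fun p ↦
    (IsLocalRing.maximalIdeal (A p)).comap (toΩ.codRestrict (A p).toSubring (hmemA p))
  have hQmem : ∀ p x, x ∈ Qf p ↔ toΩ x ∈ (A p).nonunits := fun p x ↦ by
    show toΩ.codRestrict (A p).toSubring (hmemA p) x ∈ IsLocalRing.maximalIdeal (A p) ↔ _
    rw [← ValuationSubring.coe_mem_nonunits_iff]
    rfl
  have hFr : ∀ p : Nat.Primes, IsFrobPair p (res (σp p)) (Qf p) := by
    intro p
    refine ⟨Ideal.IsPrime.comap _, ?_, fun x ↦ ?_⟩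
    · rw [hQmem, map_natCast]
      exact hA p
    · rw [hQmem, map_sub, map_pow]
      obtain ⟨hd, hres'⟩ := hσp p
      have h2 := hres' (IsLocalRing.residue (A p) ⟨toΩ x, hmemA p x⟩)
      rw [← IsLocalRing.ResidueField.residue_smul, ← map_pow, ← sub_eq_zero, ← map_sub,
        IsLocalRing.residue_eq_zero_iff, ← ValuationSubring.coe_mem_nonunits_iff] at h2
      have h3 : toΩ (res (σp p) • x) = σp p (toΩ x) := hres (σp p) (x : E)
      rw [h3]
      exact h2
  obtain ⟨p, hpS, h, hh⟩ := exists_frobenius_conj_eq hz u hinj hneg'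
    (fun m' _ χ hχ ↦ lSeriesDichotomy_of_even _ χ hχ) (fun p ↦ res (σp p)) Qf hFr S
  obtain ⟨g', hg'⟩ := AlgEquiv.restrictNormalHom_surjective (K₁ := E) Ω h
  refine ⟨p, p.2, hpS, g'⁻¹ • A p, Frobenius.liesOverPrime_smul (hA p) _,
    g'⁻¹ * σp p * g'⁻¹⁻¹, Frobenius.isFrobeniusAt_conj (hσp p) g'⁻¹, fun a ha ↦ ?_⟩
  have hu' : res (g'⁻¹ * σp p * g'⁻¹⁻¹) = res σ := by
    rw [← hu, ← hh, ← hg']
    simp [res]
  have h4 := congrArg (fun φ : E ≃ₐ[ℚ] E ↦ ((φ ⟨a, hKE (hLK ha)⟩ : E) : Ω)) hu'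
  simp only [hres] at h4
  rw [h4]
  exact hσK a (hLK ha)
where
  pow_eq_pow_mod_of_one {m : ℕ} [NeZero m] {x : Ω} (hx : IsPrimitiveRoot x m) {τ : Γ}
      (h : hx.autToPow ℚ τ = 1) : x = x ^ ((hx.autToPow ℚ τ : (ZMod m)ˣ) : ZMod m).val := by
    rw [h, Units.val_one, ZMod.val_one_eq_one_mod, ← pow_eq_pow_mod 1 hx.pow_eq_one, pow_one]

end Fermat.Agent.Chebotarev

end
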