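import Fermat.Agent.Chebotarev.Trace
import Mathlib.Algebra.MonoidAlgebra.Basic
import Mathlib.RingTheory.FiniteType
import Mathlib.RingTheory.OrzechProperty

/-!
# Traces determine residually absolutely irreducible representations

Carayol's lemma in dimension two, and the consequence of Chebotarev: two representations with the
same characteristic polynomials at almost all Frobenius elements are equivalent.
-/

set_option autoImplicit false

noncomputable section

namespace Fermat.Agent.Chebotarev

open IsLocalRing Fermat.Agent.DefRing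

/-- Carayol's lemma for two-dimensional matrix representations. -/
theorem exists_conj_of_trace_eq {A : Type*} [CommRing A] [IsLocalRing A] {G : Type*} [Group G]
    (N₁ N₂ : G →* Matrix (Fin 2) (Fin 2) A)
    (htr : ∀ g, Matrix.trace (N₁ g) = Matrix.trace (N₂ g))
    (hspan : Submodule.span A (Set.range N₁) = ⊤) :
    ∃ u : (Matrix (Fin 2) (Fin 2) A)ˣ, ∀ g, (u : Matrix (Fin 2) (Fin 2) A) * N₁ g = N₂ g * u := by
  classical
  set F₁ := MonoidAlgebra.lift A (Matrix (Fin 2) (Fin 2) A) G N₁
  set F₂ := MonoidAlgebra.lift A (Matrix (Fin 2) (Fin 2) A) G N₂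
  have hof₁ : ∀ g, F₁ (MonoidAlgebra.of A G g) = N₁ g := MonoidAlgebra.lift_of N₁
  have hof₂ : ∀ g, F₂ (MonoidAlgebra.of A G g) = N₂ g := MonoidAlgebra.lift_of N₂
  have htrF : ∀ x, Matrix.trace (F₁ x) = Matrix.trace (F₂ x) := by
    intro x
    induction x using MonoidAlgebra.induction_linear with
    | zero => simp
    | add a b ha hb => simp [map_add, Matrix.trace_add, ha, hb]
    | single g a =>
      simp only [F₁, F₂, MonoidAlgebra.lift_single, Matrix.trace_smul, htr]
  have hsurj : ∀ M, ∃ x, F₁ x = M := by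
    intro M
    have hM : M ∈ Submodule.span A (Set.range N₁) := hspan ▸ Submodule.mem_top
    induction hM using Submodule.span_induction with
    | mem x hx =>
      obtain ⟨g, rfl⟩ := hx
      exact ⟨_, hof₁ g⟩
    | zero => exact ⟨0, map_zero _⟩
    | add a b _ _ ha hb =>
      obtain ⟨a', rfl⟩ := ha
      obtain ⟨b', rfl⟩ := hb
      exact ⟨a' + b', map_add _ _ _⟩
    | smul c a _ ha =>
      obtain ⟨a', rfl⟩ := ha
      exact ⟨c • a', map_smul _ _ _⟩
  choose y hy using fun ab : Fin 2 × Fin 2 ↦ hsurj (Matrix.single ab.1 ab.2 1)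
  -- the trace pairing against the images of the matrix units is nondegenerate
  let ψ : Matrix (Fin 2) (Fin 2) A →ₗ[A] Matrix (Fin 2) (Fin 2) A :=
    { toFun := fun X ↦ Matrix.of fun a b ↦ Matrix.trace (X * F₂ (y (b, a)))
      map_add' := fun X Y ↦ by ext a b; simp [add_mul, Matrix.trace_add]
      map_smul' := fun c X ↦ by ext a b; simp [Matrix.trace_smul] }
  have hψ : Function.Injective ψ := by
    refine OrzechProperty.injective_of_surjective_endomorphism ψ fun Y ↦ ?_
    obtain ⟨x, hx⟩ := hsurj Y
    refine ⟨F₂ x, ?_⟩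
    ext a b
    change Matrix.trace (F₂ x * F₂ (y (b, a))) = Y a b
    rw [← map_mul, ← htrF, map_mul, hx, hy, Matrix.trace_mul_single]
    simp
  have hker : ∀ x, F₁ x = 0 → F₂ x = 0 := by
    intro x hx
    apply hψ
    ext a b
    rw [map_zero]
    change Matrix.trace (F₂ x * F₂ (y (b, a))) = 0
    rw [← map_mul, ← htrF, map_mul, hx, zero_mul, Matrix.trace_zero]
  have hφ : ∀ x x', F₁ x = F₁ x' → F₂ x = F₂ x' := fun x x' h ↦ by
    rw [← sub_eq_zero, ← map_sub]
    exact hker _ (by rw [map_sub, h, sub_self])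
  set E : Fin 2 → Fin 2 → Matrix (Fin 2) (Fin 2) A := fun a b ↦ F₂ (y (a, b))
  have hdecomp : ∀ x, F₂ x = ∑ a, ∑ b, F₁ x a b • E a b := by
    intro x
    simp only [E, ← map_smul, ← map_sum]
    refine hφ _ _ ?_
    simp only [map_sum, map_smul, hy]
    conv_lhs => rw [Matrix.matrix_eq_sum_single (F₁ x)]
    simp [Matrix.smul_single]
  have hmul : ∀ a b c, E a b * E b c = E a c := fun a b c ↦ by
    simp only [E, ← map_mul]
    exact hφ _ _ (by rw [map_mul, hy, hy, hy, Matrix.single_mul_single_same, mul_one])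
  have hmul0 : ∀ a b b' c, b ≠ b' → E a b * E b' c = 0 := fun a b b' c hbb ↦ by
    simp only [E, ← map_mul]
    exact hker _ (by rw [map_mul, hy, hy, Matrix.single_mul_single_of_ne _ _ _ _ hbb])
  -- a column which does not vanish modulo the maximal ideal
  obtain ⟨j, hj⟩ : ∃ j, residue A (E 0 0 j j) ≠ 0 := by
    by_contra! h
    have h1 : Matrix.trace (E 0 0) = 1 := by
      simp only [E, ← htrF, hy, Matrix.trace_single_eq_same]
    rw [Matrix.trace, Fin.sum_univ_two, Matrix.diag_apply, Matrix.diag_apply] at h1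
    have := congrArg (residue A) h1
    rw [map_add, h, h, add_zero, map_one] at this
    exact zero_ne_one this
  set g : Matrix (Fin 2) (Fin 2) A := Matrix.of fun k a ↦ E a 0 k j with hg
  have hinter : ∀ x, F₂ x * g = g * F₁ x := by
    intro x
    ext k a
    have h : (F₂ x * E a 0) k j = ∑ b, F₁ x b a * E b 0 k j := by
      rw [hdecomp x, Finset.sum_mul, Matrix.sum_apply]
      refine Finset.sum_congr rfl fun b _ ↦ ?_
      rw [Finset.sum_mul, Finset.sum_eq_single a (fun c _ hc ↦ by
        rw [smul_mul_assoc, hmul0 b c a 0 hc, smul_zero]) (by simp), smul_mul_assoc, hmul,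
        Matrix.smul_apply, smul_eq_mul]
    rw [Matrix.mul_apply] at h
    simp only [hg, Matrix.mul_apply, Matrix.of_apply]
    rw [h]
    exact Finset.sum_congr rfl fun b _ ↦ mul_comm _ _
  have hdet : IsUnit g.det := by
    by_contra hnu
    set gk := g.map (residue A)
    have h0 : gk.det = 0 := by
      rw [show gk.det = residue A g.det from ((residue A).map_det g).symm,
        residue_eq_zero_iff, mem_maximalIdeal]
      exact hnu
    obtain ⟨w, hw, hgw⟩ := Matrix.exists_mulVec_eq_zero_iff.mpr h0
    have hinv : ∀ X : Matrix (Fin 2) (Fin 2) A, gk.mulVec ((X.map (residue A)).mulVec w) = 0 := by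
      intro X
      obtain ⟨x, rfl⟩ := hsurj X
      have h1 := congrArg (fun M : Matrix (Fin 2) (Fin 2) A ↦ M.map (residue A)) (hinter x)
      simp only [Matrix.map_mul] at h1
      rw [Matrix.mulVec_mulVec, ← h1, ← Matrix.mulVec_mulVec, hgw, Matrix.mulVec_zero]
    obtain ⟨i, hi⟩ := Function.ne_iff.mp hw
    have h2 := congrFun (hinv (Matrix.single 0 i 1)) j
    rw [Matrix.map_single] at h2
    simp [Matrix.mulVec, dotProduct, Matrix.single_apply, gk, hg, Fin.sum_univ_two] at h2
    fin_cases i <;> simp_all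
  obtain ⟨u, hu⟩ := (Matrix.isUnit_iff_isUnit_det g).mpr hdet
  refine ⟨u, fun h ↦ ?_⟩
  rw [hu, ← hof₁, ← hof₂, hinter]

variable {A : Type} [CommRing A] [IsLocalRing A] [IsNoetherianRing A]

end Fermat.Agent.Chebotarev

end
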