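import Mathlib.NumberTheory.EulerProduct.Basic
import Mathlib.NumberTheory.LSeries.Basic
import Mathlib.NumberTheory.SumPrimeReciprocals
import Mathlib.Analysis.SpecialFunctions.Complex.LogBounds
import Mathlib.Analysis.SpecialFunctions.Complex.LogDeriv
import Mathlib.Analysis.Normed.Group.FunctionSeries
import Mathlib.Analysis.SpecificLimits.Normed

/-!
# L-series of multiplicative functions as exponentials of prime sums

For a multiplicative `f : ℕ → ℂ` with `‖f (p ^ e)‖ ≤ (e + 1) ^ d` and Euler factors of positive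
real part, `LSeries f s = exp (∑ p, f p * p ^ (-s) + R s)` on `(1, 2]` with `R` continuous on
`[1, 2]`.
-/

set_option autoImplicit false

noncomputable section

namespace Fermat.Agent.Chebotarev

open Filter Topology Set
open scoped BigOperators

/-- `p ↦ p ^ (-s)` for real `s`, with complex values. -/
def primePow (p : ℕ) (s : ℝ) : ℂ := (p : ℂ) ^ (-(s : ℂ))

/-- The prime part of the L-series of `f`. -/
def primeSum (f : ℕ → ℂ) (s : ℝ) : ℂ := ∑' p : Nat.Primes, f p * primePow p s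

/-- The Euler factor of `f` at `p`. -/
def eulerFactor (f : ℕ → ℂ) (p : ℕ) (s : ℝ) : ℂ := ∑' e : ℕ, f (p ^ e) * primePow p s ^ e

lemma norm_primePow {p : ℕ} (hp : 0 < p) (s : ℝ) : ‖primePow p s‖ = (p : ℝ) ^ (-s) := by
  rw [primePow, Complex.norm_natCast_cpow_of_pos hp]
  simp

lemma norm_primePow_le_inv {p : ℕ} (hp : 0 < p) {s : ℝ} (hs : 1 ≤ s) :
    ‖primePow p s‖ ≤ (p : ℝ)⁻¹ := by
  rw [norm_primePow hp, ← Real.rpow_neg_one]
  exact Real.rpow_le_rpow_of_exponent_le (by exact_mod_cast hp) (by linarith)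

lemma continuous_primePow {p : ℕ} (hp : 0 < p) : Continuous (primePow p) :=
  (Complex.continuous_ofReal.neg).const_cpow (Or.inl (by exact_mod_cast hp.ne'))

variable {f : ℕ → ℂ} {d : ℕ}

section Factor

lemma summable_bound (k d : ℕ) :
    Summable fun e : ℕ ↦ ((e : ℝ) + k + 1) ^ d * (2⁻¹ : ℝ) ^ e := by
  have h := (summable_nat_add_iff (f := fun n : ℕ ↦ ((n : ℝ)) ^ d * (2⁻¹ : ℝ) ^ n) (k + 1)).mpr
    (summable_pow_mul_geometric_of_norm_lt_one d (by norm_num))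
  refine (h.mul_left ((2 : ℝ) ^ (k + 1))).congr fun e ↦ ?_
  push_cast
  have : (2 : ℝ) ^ (k + 1) * (2⁻¹ : ℝ) ^ (k + 1) = 1 := by rw [← mul_pow]; norm_num
  rw [pow_add (2⁻¹ : ℝ) e]
  linear_combination (((e : ℝ) + k + 1) ^ d * (2⁻¹ : ℝ) ^ e) * this

variable (hpow : ∀ p : ℕ, p.Prime → ∀ e : ℕ, ‖f (p ^ e)‖ ≤ ((e : ℝ) + 1) ^ d)
include hpow

lemma norm_term_le {p : ℕ} (hp : p.Prime) {s : ℝ} (hs : 1 ≤ s) (k e : ℕ) :
    ‖f (p ^ (e + k)) * primePow p s ^ (e + k)‖
      ≤ ((p : ℝ)⁻¹) ^ k * (((e : ℝ) + k + 1) ^ d * (2⁻¹ : ℝ) ^ e) := by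
  have h2 : (2 : ℝ) ≤ p := by exact_mod_cast hp.two_le
  have hx := norm_primePow_le_inv hp.pos hs
  have hx2 : (p : ℝ)⁻¹ ≤ 2⁻¹ := by gcongr
  rw [norm_mul, norm_pow, pow_add (‖primePow p s‖)]
  calc ‖f (p ^ (e + k))‖ * (‖primePow p s‖ ^ e * ‖primePow p s‖ ^ k)
      ≤ (((e + k : ℕ) : ℝ) + 1) ^ d * ((2⁻¹ : ℝ) ^ e * ((p : ℝ)⁻¹) ^ k) := by
        gcongr
        · exact hpow p hp _
        · exact hx.trans hx2
    _ = _ := by push_cast; ring

lemma summable_factor {p : ℕ} (hp : p.Prime) {s : ℝ} (hs : 1 ≤ s) :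
    Summable fun e : ℕ ↦ f (p ^ e) * primePow p s ^ e :=
  Summable.of_norm_bounded (summable_bound 0 d |>.mul_left (((p : ℝ)⁻¹) ^ 0))
    fun e ↦ norm_term_le hpow hp hs 0 e

lemma exists_norm_tail_le (k : ℕ) : ∃ K : ℝ, 0 ≤ K ∧ ∀ p : ℕ, p.Prime → ∀ s : ℝ, 1 ≤ s →
    ‖∑' e : ℕ, f (p ^ (e + k)) * primePow p s ^ (e + k)‖ ≤ ((p : ℝ)⁻¹) ^ k * K := by
  refine ⟨∑' e : ℕ, ((e : ℝ) + k + 1) ^ d * (2⁻¹ : ℝ) ^ e,
    tsum_nonneg fun e ↦ by positivity, fun p hp s hs ↦ ?_⟩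
  exact tsum_of_norm_bounded ((summable_bound k d).hasSum.mul_left _)
    fun e ↦ norm_term_le hpow hp hs k e

lemma continuousOn_eulerFactor {p : ℕ} (hp : p.Prime) :
    ContinuousOn (eulerFactor f p) (Ici 1) :=
  continuousOn_tsum (fun e ↦ (continuous_const.mul ((continuous_primePow hp.pos).pow e)).continuousOn)
    (summable_bound 0 d |>.mul_left (((p : ℝ)⁻¹) ^ 0))
    fun e _ hs ↦ norm_term_le hpow hp hs 0 e

end Factor

/-- A multiplicative function with polynomially bounded prime power values has, on `(1, 2]`,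
L-series equal to the exponential of its prime sum plus a function continuous on `[1, 2]`. -/
theorem exists_exp_primeSum_eq (hf0 : f 0 = 0) (hf1 : f 1 = 1)
    (hmul : ∀ {a b : ℕ}, a.Coprime b → f (a * b) = f a * f b)
    (hpow : ∀ p : ℕ, p.Prime → ∀ e : ℕ, ‖f (p ^ e)‖ ≤ ((e : ℝ) + 1) ^ d)
    (hsum : ∀ s : ℝ, 1 < s → LSeriesSummable f s)
    (hre : ∀ p : ℕ, p.Prime → ∀ s : ℝ, 1 ≤ s → 0 < (eulerFactor f p s).re) :
    ∃ R : ℝ → ℂ, ContinuousOn R (Icc 1 2) ∧ ∀ s ∈ Ioc (1 : ℝ) 2,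
      Summable (fun p : Nat.Primes ↦ f p * primePow p s) ∧
      LSeries f s = Complex.exp (primeSum f s + R s) := by
  classical
  have hf1' : ∀ p : ℕ, p.Prime → ‖f p‖ ≤ 2 ^ d := fun p hp ↦ by
    simpa [one_add_one_eq_two] using hpow p hp 1
  obtain ⟨K1, hK1, hb1⟩ := exists_norm_tail_le hpow 1
  obtain ⟨K2, hK2, hb2⟩ := exists_norm_tail_le hpow 2
  set w : Nat.Primes → ℝ → ℂ := fun p s ↦
    Complex.log (eulerFactor f p s) - f p * primePow p s with hw
  -- continuity of each summand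
  have hwc (p : Nat.Primes) : ContinuousOn (w p) (Ici 1) := by
    refine ContinuousOn.sub ?_ (continuous_const.mul (continuous_primePow p.2.pos)).continuousOn
    exact (continuousOn_eulerFactor hpow p.2).clog fun s hs ↦ Or.inl (hre p p.2 s hs)
  -- uniform bound for large primes
  have hbig (p : Nat.Primes) (hp : 2 * K1 ≤ (p : ℕ)) (s : ℝ) (hs : 1 ≤ s) :
      ‖w p s‖ ≤ (K1 ^ 2 + K2) * ((p : ℝ)⁻¹) ^ 2 := by
    have hS := summable_factor hpow p.2 hs
    have hz1 : eulerFactor f p s = 1 + ∑' e : ℕ, f ((p : ℕ) ^ (e + 1)) * primePow p s ^ (e + 1) := by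
      rw [eulerFactor, hS.tsum_eq_zero_add]
      simp [hf1]
    have hz2 : ∑' e : ℕ, f ((p : ℕ) ^ (e + 1)) * primePow p s ^ (e + 1) = f p * primePow p s
        + ∑' e : ℕ, f ((p : ℕ) ^ (e + 2)) * primePow p s ^ (e + 2) := by
      rw [((summable_nat_add_iff (f := fun e ↦ f ((p : ℕ) ^ e) * primePow p s ^ e) 1).mpr
        hS).tsum_eq_zero_add]
      simp
    set z := ∑' e : ℕ, f ((p : ℕ) ^ (e + 1)) * primePow p s ^ (e + 1) with hz
    have hzle : ‖z‖ ≤ (p : ℝ)⁻¹ * K1 := by simpa using hb1 p p.2 s hs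
    have hppos : (0 : ℝ) < p := by exact_mod_cast p.2.pos
    have hzhalf : ‖z‖ ≤ 2⁻¹ := by
      refine hzle.trans ?_
      rw [inv_mul_le_iff₀ hppos]
      linarith
    have h2 := hb2 p p.2 s hs
    have h3 : ‖Complex.log (1 + z) - z‖ ≤ ‖z‖ ^ 2 := by
      refine (Complex.norm_log_one_add_sub_self_le (by linarith)).trans ?_
      have : (1 - ‖z‖)⁻¹ ≤ 2 := by
        rw [inv_le_comm₀ (by linarith) two_pos]; linarith
      nlinarith [sq_nonneg ‖z‖]
    have : w p s = (Complex.log (1 + z) - z)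
        + ∑' e : ℕ, f ((p : ℕ) ^ (e + 2)) * primePow p s ^ (e + 2) := by
      simp only [hw, hz1]; linear_combination hz2
    rw [this]
    refine (norm_add_le _ _).trans ?_
    have : ‖z‖ ^ 2 ≤ ((p : ℝ)⁻¹ * K1) ^ 2 := by gcongr
    nlinarith [mul_pow (p : ℝ)⁻¹ K1 2]
  -- a summable majorant on `[1, 2]`
  have hsmall (p : Nat.Primes) : ∃ B : ℝ, ∀ s ∈ Icc (1 : ℝ) 2, ‖w p s‖ ≤ B :=
    isCompact_Icc.exists_bound_of_continuousOn ((hwc p).mono Icc_subset_Ici_self)
  choose B hB using hsmall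
  set M : Nat.Primes → ℝ := fun p ↦
    if 2 * K1 ≤ (p : ℕ) then (K1 ^ 2 + K2) * ((p : ℝ)⁻¹) ^ 2 else B p with hM
  have hfin : {p : Nat.Primes | ¬ 2 * K1 ≤ (p : ℕ)}.Finite := by
    refine Set.Finite.of_finite_image ((finite_Iio (⌈2 * K1⌉₊ + 1)).subset ?_)
      Nat.Primes.coe_nat_injective.injOn
    rintro _ ⟨p, hp, rfl⟩
    simp only [mem_ofPred_eq, not_le] at hp
    have : ((p : ℕ) : ℝ) < ((⌈2 * K1⌉₊ : ℕ) : ℝ) := hp.trans_le (Nat.le_ceil _)
    exact mem_Iio.mpr ((Nat.cast_lt.mp this).trans (Nat.lt_succ_self _))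
  have hMs : Summable M := by
    refine Summable.congr_cofinite
      ((Nat.Primes.summable_rpow.mpr (by norm_num : (-2 : ℝ) < -1)).mul_left (K1 ^ 2 + K2)) ?_
    filter_upwards [hfin.eventually_cofinite_notMem] with p hp
    replace hp : 2 * K1 ≤ ((p : ℕ) : ℝ) := not_not.mp hp
    rw [hM]; dsimp only
    rw [if_pos hp]
    congr 1
    rw [inv_pow, ← Real.rpow_natCast, ← Real.rpow_neg (by positivity)]
    norm_num
  have hwM (p : Nat.Primes) (s : ℝ) (hs : s ∈ Icc (1 : ℝ) 2) : ‖w p s‖ ≤ M p := by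
    rw [hM]; dsimp only
    split_ifs with h
    · exact hbig p h s hs.1
    · exact hB p s hs
  refine ⟨fun s ↦ ∑' p : Nat.Primes, w p s,
    continuousOn_tsum (fun p ↦ (hwc p).mono Icc_subset_Ici_self) hMs hwM, fun s hs ↦ ?_⟩
  have hs1 : 1 < s := hs.1
  have hsP : Summable fun p : Nat.Primes ↦ f p * primePow p s := by
    refine Summable.of_norm_bounded
      ((Nat.Primes.summable_rpow.mpr (by linarith : -s < -1)).mul_left ((2 : ℝ) ^ d)) fun p ↦ ?_
    rw [norm_mul, norm_primePow p.2.pos]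
    exact mul_le_mul_of_nonneg_right (hf1' p p.2) (by positivity)
  have hsW : Summable fun p ↦ w p s :=
    Summable.of_norm_bounded hMs fun p ↦ hwM p s ⟨hs.1.le, hs.2⟩
  refine ⟨hsP, ?_⟩
  have hlog : HasSum (fun p : Nat.Primes ↦ Complex.log (eulerFactor f p s))
      (primeSum f s + ∑' p, w p s) := by
    have h := hsP.hasSum.add hsW.hasSum
    simp only [hw, add_sub_cancel] at h
    exact h
  set g : ℕ → ℂ := fun n ↦ f n * (n : ℂ) ^ (-(s : ℂ)) with hg
  have hLg : LSeries.term f s = g := funext (LSeries.term_def₀ hf0 _)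
  have hprod : HasProd (fun p : Nat.Primes ↦ eulerFactor f p s) (∑' n, g n) := by
    have hgm : ∀ {a b : ℕ}, a.Coprime b → g (a * b) = g a * g b := fun {a b} hab ↦ by
      simp only [hg, hmul hab, Nat.cast_mul, Complex.natCast_mul_natCast_cpow]
      ring
    have := EulerProduct.eulerProduct_hasProd (f := g) (by simp [hg, hf1]) hgm
      (by rw [← hLg]; exact (hsum s hs1).norm) (by simp [hg, hf0])
    convert this using 2 with p
    refine tsum_congr fun e ↦ ?_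
    simp only [hg, primePow, Nat.cast_pow]
    rw [← Complex.natCast_cpow_natCast_mul, mul_comm (e : ℂ), Complex.cpow_mul_nat]
  have hexp := hlog.cexp
  have heq : (Complex.exp ∘ fun p : Nat.Primes ↦ Complex.log (eulerFactor f p s))
      = fun p : Nat.Primes ↦ eulerFactor f p s := by
    funext p
    refine Complex.exp_log fun h ↦ ?_
    have := hre p p.2 s hs.1.le
    simp [h] at this
  rw [heq] at hexp
  rw [LSeries, hLg]
  exact hprod.unique hexp

end Fermat.Agent.Chebotarev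

end
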