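import Mathlib.NumberTheory.NumberField.DedekindZeta
import Mathlib.NumberTheory.DirichletCharacter.Bounds
import Mathlib.RingTheory.Ideal.Norm.AbsNorm
import Fermat.Agent.Chebotarev.EulerSum

/-!
# Ideal counting functions twisted by a Dirichlet character

`chiCoeff K χ n = χ n * #{I : absNorm I = n}` is multiplicative, its values at prime powers are
polynomially bounded, and its L-series converges for `re s > 1`.
-/

set_option autoImplicit false

noncomputable section

namespace Fermat.Agent.Chebotarev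

open NumberField Filter Topology Asymptotics
open scoped BigOperators

variable (K : Type*) [Field K] [NumberField K]

/-- Number of ideals of the ring of integers with given norm. -/
def idealCount (n : ℕ) : ℕ := Nat.card {I : Ideal (𝓞 K) // Ideal.absNorm I = n}

/-- Coefficients of the L-series of `χ ∘ absNorm`. -/
def chiCoeff {m : ℕ} (χ : DirichletCharacter ℂ m) (n : ℕ) : ℂ :=
  if n = 0 then 0 else χ (n : ZMod m) * idealCount K n

lemma idealCount_one : idealCount K 1 = 1 := by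
  unfold idealCount
  rw [Nat.card_eq_one_iff_unique]
  exact ⟨⟨fun a b ↦ Subtype.ext ((Ideal.absNorm_eq_one_iff.mp a.2).trans
    (Ideal.absNorm_eq_one_iff.mp b.2).symm)⟩, ⟨⊤, Ideal.absNorm_top⟩⟩

section Mul

variable {K}

lemma natCast_mem_of_absNorm_eq {I : Ideal (𝓞 K)} {n : ℕ} (h : Ideal.absNorm I = n) :
    (n : 𝓞 K) ∈ I := h ▸ Ideal.absNorm_mem I

variable {a b : ℕ}

lemma span_sup_span_of_coprime (hab : a.Coprime b) :
    Ideal.span {(a : 𝓞 K)} ⊔ Ideal.span {(b : 𝓞 K)} = ⊤ := by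
  rw [Ideal.eq_top_iff_one, Submodule.mem_sup]
  have := Nat.gcd_eq_gcd_ab a b
  rw [Nat.Coprime.gcd_eq_one hab] at this
  refine ⟨(a : 𝓞 K) * (Nat.gcdA a b : 𝓞 K), Ideal.mul_mem_right _ _ (Ideal.mem_span_singleton_self _),
    (b : 𝓞 K) * (Nat.gcdB a b : 𝓞 K), Ideal.mul_mem_right _ _ (Ideal.mem_span_singleton_self _), ?_⟩
  exact_mod_cast this.symm

lemma sup_mul_sup (hab : a.Coprime b) {I : Ideal (𝓞 K)} (h : (a : 𝓞 K) * b ∈ I) :
    (I ⊔ Ideal.span {(a : 𝓞 K)}) * (I ⊔ Ideal.span {(b : 𝓞 K)}) = I := by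
  refine le_antisymm ?_ ?_
  · simp only [Ideal.mul_sup, Ideal.sup_mul]
    refine sup_le (sup_le Ideal.mul_le_left Ideal.mul_le_right) (sup_le Ideal.mul_le_left ?_)
    rw [Ideal.span_singleton_mul_span_singleton, Ideal.span_singleton_le_iff_mem]
    exact h
  · calc I = I * (Ideal.span {(b : 𝓞 K)} ⊔ Ideal.span {(a : 𝓞 K)}) := by
          rw [sup_comm, span_sup_span_of_coprime hab, Ideal.mul_top]
      _ ≤ _ := by
          rw [Ideal.mul_sup]
          refine sup_le (Ideal.mul_mono le_sup_left le_sup_right) ?_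
          rw [Ideal.mul_comm]
          exact Ideal.mul_mono le_sup_right le_sup_left

lemma absNorm_sup_eq (hab : a.Coprime b) {I : Ideal (𝓞 K)} (h : Ideal.absNorm I = a * b) :
    Ideal.absNorm (I ⊔ Ideal.span {(a : 𝓞 K)}) = a ∧
      Ideal.absNorm (I ⊔ Ideal.span {(b : 𝓞 K)}) = b := by
  have hmem : (a : 𝓞 K) * b ∈ I := by exact_mod_cast natCast_mem_of_absNorm_eq h
  have hprod := congr_arg Ideal.absNorm (sup_mul_sup hab hmem)
  rw [map_mul, h] at hprod
  have hA : Ideal.absNorm (I ⊔ Ideal.span {(a : 𝓞 K)}) ∣ a ^ Module.finrank ℤ (𝓞 K) := by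
    rw [← Ideal.absNorm_span_natCast]
    exact Ideal.absNorm_dvd_absNorm_of_le le_sup_right
  have hB : Ideal.absNorm (I ⊔ Ideal.span {(b : 𝓞 K)}) ∣ b ^ Module.finrank ℤ (𝓞 K) := by
    rw [← Ideal.absNorm_span_natCast]
    exact Ideal.absNorm_dvd_absNorm_of_le le_sup_right
  set A := Ideal.absNorm (I ⊔ Ideal.span {(a : 𝓞 K)})
  set B := Ideal.absNorm (I ⊔ Ideal.span {(b : 𝓞 K)})
  have hAb : A.Coprime b := Nat.Coprime.coprime_dvd_left hA (hab.pow_left _)
  have hBa : B.Coprime a := Nat.Coprime.coprime_dvd_left hB (hab.symm.pow_left _)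
  refine ⟨Nat.dvd_antisymm (hAb.dvd_of_dvd_mul_right (hprod ▸ Dvd.intro _ rfl)) ?_,
    Nat.dvd_antisymm (hBa.dvd_of_dvd_mul_left (hprod ▸ Dvd.intro_left _ rfl)) ?_⟩
  · exact hBa.symm.dvd_of_dvd_mul_right (hprod.symm ▸ Dvd.intro _ rfl)
  · exact hAb.symm.dvd_of_dvd_mul_left (hprod.symm ▸ Dvd.intro_left _ rfl)

lemma mul_sup_span_eq (hab : a.Coprime b) {A B : Ideal (𝓞 K)} (hA : (a : 𝓞 K) ∈ A)
    (hB : (b : 𝓞 K) ∈ B) : A * B ⊔ Ideal.span {(a : 𝓞 K)} = A := by
  refine le_antisymm (sup_le Ideal.mul_le_left ((Ideal.span_singleton_le_iff_mem _).mpr hA)) ?_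
  calc A = A * (Ideal.span {(b : 𝓞 K)} ⊔ Ideal.span {(a : 𝓞 K)}) := by
        rw [sup_comm, span_sup_span_of_coprime hab, Ideal.mul_top]
    _ ≤ _ := by
        rw [Ideal.mul_sup]
        exact sup_le_sup (Ideal.mul_mono le_rfl ((Ideal.span_singleton_le_iff_mem _).mpr hB))
          Ideal.mul_le_right

end Mul

lemma idealCount_mul {a b : ℕ} (hab : a.Coprime b) :
    idealCount K (a * b) = idealCount K a * idealCount K b := by
  unfold idealCount
  rw [← Nat.card_prod]
  refine Nat.card_congr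
    { toFun := fun I ↦ (⟨_, (absNorm_sup_eq hab I.2).1⟩, ⟨_, (absNorm_sup_eq hab I.2).2⟩)
      invFun := fun P ↦ ⟨P.1.1 * P.2.1, by rw [map_mul, P.1.2, P.2.2]⟩
      left_inv := fun I ↦ Subtype.ext (sup_mul_sup hab ?_)
      right_inv := fun P ↦ Prod.ext (Subtype.ext ?_) (Subtype.ext ?_) }
  · exact_mod_cast natCast_mem_of_absNorm_eq I.2
  · exact mul_sup_span_eq hab (natCast_mem_of_absNorm_eq P.1.2) (natCast_mem_of_absNorm_eq P.2.2)
  · dsimp only
    rw [mul_comm P.1.1 P.2.1]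
    exact mul_sup_span_eq hab.symm (natCast_mem_of_absNorm_eq P.2.2)
      (natCast_mem_of_absNorm_eq P.1.2)

open UniqueFactorizationMonoid in
lemma idealCount_prime_pow_le {p : ℕ} (hp : p.Prime) (e : ℕ) :
    idealCount K (p ^ e) ≤ (e + 1) ^ Module.finrank ℚ K := by
  classical
  have hspan : Ideal.span {(p : 𝓞 K)} ≠ (0 : Ideal (𝓞 K)) := by
    rw [Ideal.zero_eq_bot, ne_eq, Ideal.span_singleton_eq_bot]
    exact_mod_cast hp.ne_zero
  set S := (normalizedFactors (Ideal.span {(p : 𝓞 K)})).toFinset with hS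
  have hnorm : ∀ P ∈ S, ∃ f, 0 < f ∧ Ideal.absNorm P = p ^ f := by
    intro P hP
    rw [hS, Multiset.mem_toFinset] at hP
    have hdvd := dvd_of_mem_normalizedFactors hP
    have h1 : Ideal.absNorm P ∣ p ^ Module.finrank ℤ (𝓞 K) := by
      rw [← Ideal.absNorm_span_natCast]
      exact map_dvd Ideal.absNorm hdvd
    obtain ⟨f, -, hf⟩ := (Nat.dvd_prime_pow hp).mp h1
    refine ⟨f, Nat.pos_of_ne_zero fun h0 ↦ (prime_of_normalized_factor P hP).not_isUnit ?_, hf⟩
    rw [h0, pow_zero, Ideal.absNorm_eq_one_iff] at hf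
    exact Ideal.isUnit_iff.mpr hf
  have hcard : S.card ≤ Module.finrank ℚ K := by
    rw [← RingOfIntegers.rank K]
    have hd : ∏ P ∈ S, P ∣ Ideal.span {(p : 𝓞 K)} := by
      refine dvd_trans ?_ (prod_normalizedFactors hspan).dvd
      rw [hS, Finset.prod_eq_multiset_prod, Multiset.map_id', Multiset.toFinset_val]
      exact Multiset.prod_dvd_prod_of_le (Multiset.dedup_le _)
    have hd' : ∏ P ∈ S, Ideal.absNorm P ∣ p ^ Module.finrank ℤ (𝓞 K) := by
      rw [← map_prod, ← Ideal.absNorm_span_natCast]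
      exact map_dvd Ideal.absNorm hd
    refine pow_exp_le ?_
    exact dvd_trans (by
      rw [← Finset.prod_const]
      exact Finset.prod_dvd_prod_of_dvd _ _ fun P hP ↦ by
        obtain ⟨f, hf, hP'⟩ := hnorm P hP
        rw [hP']; exact dvd_pow_self p hf.ne') hd'
  have hI0 : ∀ I : {I : Ideal (𝓞 K) // Ideal.absNorm I = p ^ e}, I.1 ≠ 0 := fun I h ↦ by
    have := I.2
    rw [h, Ideal.zero_eq_bot, Ideal.absNorm_bot] at this
    exact pow_ne_zero e hp.ne_zero this.symm
  have hsub : ∀ I : {I : Ideal (𝓞 K) // Ideal.absNorm I = p ^ e},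
      ∀ P ∈ normalizedFactors I.1, P ∈ S := by
    intro I P hP
    have hle : normalizedFactors I.1 ≤ e • normalizedFactors (Ideal.span {(p : 𝓞 K)}) := by
      rw [← normalizedFactors_pow, ← dvd_iff_normalizedFactors_le_normalizedFactors (hI0 I)
        (pow_ne_zero _ hspan), Ideal.span_singleton_pow, Ideal.dvd_span_singleton]
      exact_mod_cast natCast_mem_of_absNorm_eq I.2
    rw [hS, Multiset.mem_toFinset]
    exact Multiset.mem_of_mem_nsmul (Multiset.mem_of_le hle hP)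
  have hcnt : ∀ I : {I : Ideal (𝓞 K) // Ideal.absNorm I = p ^ e}, ∀ P : S,
      (normalizedFactors I.1).count P.1 ≤ e := by
    intro I P
    obtain ⟨f, hf, hP⟩ := hnorm P P.2
    have hd : P.1 ^ (normalizedFactors I.1).count P.1 ∣ I.1 := by
      refine dvd_trans ?_ (prod_normalizedFactors (hI0 I)).dvd
      rw [← Multiset.prod_replicate]
      exact Multiset.prod_dvd_prod_of_le (Multiset.le_count_iff_replicate_le.mp le_rfl)
    have := map_dvd Ideal.absNorm hd
    rw [map_pow, hP, I.2, ← pow_mul] at this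
    exact le_trans (Nat.le_mul_of_pos_left _ hf) (pow_exp_le this)
  let F : {I : Ideal (𝓞 K) // Ideal.absNorm I = p ^ e} → (S → Fin (e + 1)) :=
    fun I P ↦ ⟨(normalizedFactors I.1).count P.1, Nat.lt_succ_of_le (hcnt I P)⟩
  have hF : Function.Injective F := by
    intro I J h
    have hc : normalizedFactors I.1 = normalizedFactors J.1 := by
      refine Multiset.ext.mpr fun P ↦ ?_
      by_cases hP : P ∈ S
      · exact congr_arg Fin.val (congr_fun h ⟨P, hP⟩)
      · rw [Multiset.count_eq_zero.mpr fun hh ↦ hP (hsub I P hh),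
          Multiset.count_eq_zero.mpr fun hh ↦ hP (hsub J P hh)]
    exact Subtype.ext (associated_iff_eq.mp ((prod_normalizedFactors (hI0 I)).symm.trans
      ((hc ▸ prod_normalizedFactors (hI0 J)))))
  refine le_trans (Nat.card_le_card_of_injective F hF) ?_
  rw [Nat.card_fun, Nat.card_eq_fintype_card, Fintype.card_fin, Nat.card_eq_fintype_card,
    Fintype.card_coe]
  exact Nat.pow_le_pow_right (Nat.succ_pos e) hcard
where
  pow_exp_le {a b : ℕ} (h : p ^ a ∣ p ^ b) : a ≤ b :=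
    (Nat.pow_dvd_pow_iff_le_right hp.one_lt).mp h

variable {m : ℕ} (χ : DirichletCharacter ℂ m)

@[simp] lemma chiCoeff_zero : chiCoeff K χ 0 = 0 := if_pos rfl

lemma chiCoeff_of_ne_zero {n : ℕ} (hn : n ≠ 0) :
    chiCoeff K χ n = χ (n : ZMod m) * idealCount K n := if_neg hn

@[simp] lemma chiCoeff_one : chiCoeff K χ 1 = 1 := by
  simp [chiCoeff_of_ne_zero, idealCount_one]

lemma chiCoeff_mul {a b : ℕ} (hab : a.Coprime b) :
    chiCoeff K χ (a * b) = chiCoeff K χ a * chiCoeff K χ b := by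
  rcases eq_or_ne a 0 with rfl | ha
  · simp
  rcases eq_or_ne b 0 with rfl | hb
  · simp
  rw [chiCoeff_of_ne_zero _ _ (mul_ne_zero ha hb), chiCoeff_of_ne_zero _ _ ha,
    chiCoeff_of_ne_zero _ _ hb, idealCount_mul K hab]
  push_cast
  rw [map_mul]
  ring

lemma norm_chiCoeff_le (n : ℕ) : ‖chiCoeff K χ n‖ ≤ idealCount K n := by
  unfold chiCoeff
  split_ifs with h
  · simp
  · rw [norm_mul, Complex.norm_natCast]
    exact mul_le_of_le_one_left (Nat.cast_nonneg _) (DirichletCharacter.norm_le_one χ _)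

lemma norm_chiCoeff_prime_pow_le {p : ℕ} (hp : p.Prime) (e : ℕ) :
    ‖chiCoeff K χ (p ^ e)‖ ≤ ((e : ℝ) + 1) ^ Module.finrank ℚ K :=
  (norm_chiCoeff_le K χ _).trans (by exact_mod_cast idealCount_prime_pow_le K hp e)

lemma sum_idealCount_bigO :
    (fun n ↦ ((∑ k ∈ Finset.Icc 1 n, idealCount K k : ℕ) : ℝ)) =O[atTop] fun n ↦ (n : ℝ) := by
  have h := ((NumberField.Ideal.tendsto_norm_le_div_atTop K).comp
    tendsto_natCast_atTop_atTop).isBigO_one ℝ
  have h2 : (fun n : ℕ ↦ (Nat.card {I : Ideal (𝓞 K) // Ideal.absNorm I ≤ n} : ℝ))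
      =O[atTop] fun n ↦ (n : ℝ) := by
    refine (h.mul (isBigO_refl (fun n : ℕ ↦ (n : ℝ)) atTop)).congr' ?_ (by simp)
    filter_upwards [eventually_ne_atTop 0] with n hn
    simp only [Function.comp_apply, Nat.cast_le]
    field_simp
  refine (IsBigO.of_bound 1 (Eventually.of_forall fun n ↦ ?_)).trans h2
  rw [Real.norm_natCast, one_mul, Real.norm_natCast, Nat.cast_le]
  calc ∑ k ∈ Finset.Icc 1 n, idealCount K k ≤ ∑ k ∈ Finset.Icc 0 n, idealCount K k :=
        Finset.sum_le_sum_of_subset (Finset.Icc_subset_Icc_left zero_le_one)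
    _ = _ := by
        unfold idealCount
        rw [← Finset.card_preimage_eq_sum_card_image_eq
          (fun k _ ↦ Ideal.finite_setOfPred_absNorm_eq k)]
        simp [Set.coe_eq_subtype]

lemma lseriesSummable_chiCoeff {s : ℂ} (hs : 1 < s.re) : LSeriesSummable (chiCoeff K χ) s := by
  refine LSeriesSummable_of_sum_norm_bigO (r := 1) ?_ zero_le_one hs
  simp only [Real.rpow_one]
  refine (IsBigO.of_bound 1 (Eventually.of_forall fun n ↦ ?_)).trans (sum_idealCount_bigO K)
  rw [one_mul, Real.norm_of_nonneg (Finset.sum_nonneg fun _ _ ↦ norm_nonneg _),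
    Real.norm_natCast, Nat.cast_sum]
  exact Finset.sum_le_sum fun k _ ↦ norm_chiCoeff_le K χ k

lemma LSeries_chiCoeff_one (s : ℂ) :
    LSeries (chiCoeff K (1 : DirichletCharacter ℂ 1)) s = dedekindZeta K s :=
  LSeries_congr (fun hn ↦ by
    rw [chiCoeff_of_ne_zero _ _ hn, MulChar.one_apply (isUnit_of_subsingleton _), one_mul]
    rfl) s

end Fermat.Agent.Chebotarev

end
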