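import Mathlib.FieldTheory.Galois.Basic
import Mathlib.FieldTheory.PrimitiveElement
import Mathlib.FieldTheory.Finite.Basic
import Mathlib.NumberTheory.NumberField.Ideal.Basic
import Mathlib.RingTheory.Invariant.Basic
import Fermat.Agent.Chebotarev.IdealCount

/-!
# Degree one primes of an intermediate field and fixed cosets of Frobenius

For a Galois number field `E`, a subgroup `H` of its Galois group with fixed field `M` and a prime
`p` outside a finite set, the ideals of norm `p` of `M` correspond to the cosets of `H` fixed by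
a Frobenius element at `p`.
-/

set_option autoImplicit false

noncomputable section

namespace Fermat.Agent.Chebotarev

open NumberField
open scoped Pointwise

variable (E : Type*) [Field E] [NumberField E]

/-- For a nonzero algebraic integer `a` only the primes dividing a fixed nonzero integer can lie
under a prime ideal containing `a`. -/
lemma exists_bad_integer {a : 𝓞 E} (ha : a ≠ 0) :
    ∃ n : ℕ, n ≠ 0 ∧ ∀ p : ℕ, p.Prime → ¬ p ∣ n → ∀ Q : Ideal (𝓞 E), Q.IsPrime →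
      (p : 𝓞 E) ∈ Q → a ∉ Q := by
  refine ⟨Ideal.absNorm (Ideal.span {a}), ?_, fun p hp hpn Q hQ hpQ haQ ↦ hQ.ne_top ?_⟩
  · rw [Ne, Ideal.absNorm_eq_zero_iff, Ideal.span_singleton_eq_bot]
    exact ha
  · set n := Ideal.absNorm (Ideal.span {a})
    have hn : (n : 𝓞 E) ∈ Q :=
      (Ideal.span_singleton_le_iff_mem Q).mpr haQ (Ideal.absNorm_mem _)
    have hcop : p.Coprime n := hp.coprime_iff_not_dvd.mpr hpn
    rw [Ideal.eq_top_iff_one]
    have hb := Nat.gcd_eq_gcd_ab p n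
    rw [hcop.gcd_eq_one] at hb
    have : (1 : 𝓞 E) = (p : 𝓞 E) * (Nat.gcdA p n : 𝓞 E) + (n : 𝓞 E) * (Nat.gcdB p n : 𝓞 E) := by
      exact_mod_cast hb
    rw [this]
    exact add_mem (Q.mul_mem_right _ hpQ) (Q.mul_mem_right _ hn)

/-- A finite family version of `exists_bad_integer`. -/
lemma exists_bad_integer_family {ι : Type*} [Finite ι] (a : ι → 𝓞 E) :
    ∃ n : ℕ, n ≠ 0 ∧ ∀ p : ℕ, p.Prime → ¬ p ∣ n → ∀ Q : Ideal (𝓞 E), Q.IsPrime →
      (p : 𝓞 E) ∈ Q → ∀ i, a i ∈ Q → a i = 0 := by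
  classical
  have := Fintype.ofFinite ι
  obtain ⟨n, hn0, hn⟩ := exists_bad_integer E
    (a := ∏ i ∈ Finset.univ.filter (fun i ↦ a i ≠ 0), a i)
    (Finset.prod_ne_zero_iff.mpr fun i hi ↦ (Finset.mem_filter.mp hi).2)
  refine ⟨n, hn0, fun p hp hpn Q hQ hpQ i hi ↦ ?_⟩
  by_contra h
  exact hn p hp hpn Q hQ hpQ (Ideal.mem_of_dvd Q
    (Finset.dvd_prod_of_mem _ (Finset.mem_filter.mpr ⟨Finset.mem_univ _, h⟩)) hi)

section Residue

variable {E}

/-- An ideal of prime norm `p` has residue ring `ℤ / p`. -/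
lemma residue_of_absNorm_eq_prime {p : ℕ} (hp : p.Prime) {P : Ideal (𝓞 E)}
    (h : Ideal.absNorm P = p) (a : 𝓞 E) : a ^ p - a ∈ P ∧ ∃ c : ℤ, a - (c : 𝓞 E) ∈ P := by
  have : Fact p.Prime := ⟨hp⟩
  have hP : P.IsPrime := Ideal.isPrime_of_irreducible_absNorm (by rw [h]; exact hp)
  have hcard : Nat.card (𝓞 E ⧸ P) = p := by
    rw [← h, Ideal.absNorm_apply, Submodule.cardQuot_apply]
  have : Finite (𝓞 E ⧸ P) := Nat.finite_of_card_ne_zero (hcard ▸ hp.ne_zero)
  have := Fintype.ofFinite (𝓞 E ⧸ P)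
  let e := ZMod.ringEquivOfPrime (𝓞 E ⧸ P) hp (by rw [← Nat.card_eq_fintype_card]; exact hcard)
  constructor
  · rw [← Ideal.Quotient.eq, map_pow]
    obtain ⟨z, hz⟩ := e.surjective (Ideal.Quotient.mk P a)
    rw [← hz, ← map_pow, ZMod.pow_card]
  · obtain ⟨z, hz⟩ := e.surjective (Ideal.Quotient.mk P a)
    refine ⟨z.cast, ?_⟩
    rw [← Ideal.Quotient.eq, ← hz, map_intCast]
    conv_lhs => rw [← ZMod.intCast_zmod_cast z, map_intCast]

/-- A prime ideal over `p` whose residue ring is fixed by `x ↦ x ^ p` has norm `p`. -/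
lemma absNorm_eq_of_forall_pow_sub_mem {p : ℕ} (hp : p.Prime) {P : Ideal (𝓞 E)} (hP : P.IsPrime)
    (hpP : (p : 𝓞 E) ∈ P) (h : ∀ a : 𝓞 E, a ^ p - a ∈ P) : Ideal.absNorm P = p := by
  classical
  have hP0 : P ≠ ⊥ := fun h0 ↦ by
    rw [h0, Ideal.mem_bot] at hpP
    exact hp.ne_zero (by exact_mod_cast hpP)
  have : P.IsMaximal := hP.isMaximal hP0
  have : Finite (𝓞 E ⧸ P) := inferInstance
  have : Fintype (𝓞 E ⧸ P) := Fintype.ofFinite _
  have hdvd : Ideal.absNorm P ∣ p ^ Module.finrank ℤ (𝓞 E) := by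
    rw [← Ideal.absNorm_span_natCast]
    exact Ideal.absNorm_dvd_absNorm_of_le ((Ideal.span_singleton_le_iff_mem _).mpr hpP)
  obtain ⟨f, -, hf⟩ := (Nat.dvd_prime_pow hp).mp hdvd
  have hle : Ideal.absNorm P ≤ p := by
    rw [Ideal.absNorm_apply, Submodule.cardQuot_apply, Nat.card_eq_fintype_card,
      ← Finset.card_univ]
    have hdeg : (Polynomial.X ^ p - Polynomial.X : Polynomial (𝓞 E ⧸ P)).natDegree = p := by
      rw [Polynomial.natDegree_sub_eq_left_of_natDegree_lt] <;> simp [hp.one_lt]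
    have hne : (Polynomial.X ^ p - Polynomial.X : Polynomial (𝓞 E ⧸ P)) ≠ 0 :=
      fun h0 ↦ hp.ne_zero (by rw [h0, Polynomial.natDegree_zero] at hdeg; exact hdeg.symm)
    refine (Polynomial.card_le_degree_of_subset_roots (Z := Finset.univ) ?_).trans_eq hdeg
    intro x _
    obtain ⟨a, rfl⟩ := Ideal.Quotient.mk_surjective x
    rw [Polynomial.mem_roots hne, Polynomial.IsRoot, Polynomial.eval_sub, Polynomial.eval_pow,
      Polynomial.eval_X, ← map_pow, ← map_sub, Ideal.Quotient.eq_zero_iff_mem]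
    exact h a
  have hf0 : f ≠ 0 := fun h0 ↦ hP.ne_top (by
    rw [← Ideal.absNorm_eq_one_iff, hf, h0, pow_zero])
  rw [hf] at hle ⊢
  have : f ≤ 1 := (Nat.pow_le_pow_iff_right hp.one_lt).mp (by simpa using hle)
  rw [show f = 1 by omega, pow_one]

end Residue

variable [IsGalois ℚ E]

lemma isInvariant_ringOfIntegers : Algebra.IsInvariant ℤ (𝓞 E) (E ≃ₐ[ℚ] E) := by
  refine ⟨fun b hb ↦ ?_⟩
  obtain ⟨r, hr⟩ : (b : E) ∈ Set.range (algebraMap ℚ E) :=
    (IsGalois.mem_range_algebraMap_iff_fixed _).mpr fun g ↦ congrArg (fun x : 𝓞 E ↦ (x : E)) (hb g)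
  have h1 : IsIntegral ℤ (b : E) := b.isIntegral_coe
  rw [← hr, isIntegral_algebraMap_iff (algebraMap ℚ E).injective] at h1
  obtain ⟨m, rfl⟩ := IsIntegrallyClosed.isIntegral_iff.1 h1
  exact ⟨m, RingOfIntegers.ext (by simpa using hr)⟩

omit [IsGalois ℚ E] in
/-- An algebraic integer of the fixed field of `H` with stabiliser `H`. -/
lemma exists_integral_primitive (H : Subgroup (E ≃ₐ[ℚ] E)) :
    ∃ θ : 𝓞 (IntermediateField.fixedField H),
      ∀ g : E ≃ₐ[ℚ] E, g ((θ : IntermediateField.fixedField H) : E)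
        = ((θ : IntermediateField.fixedField H) : E) ↔ g ∈ H := by
  set M := IntermediateField.fixedField H with hM
  obtain ⟨α, hα⟩ := Field.exists_primitive_element ℚ M
  have halg : IsAlgebraic ℤ α :=
    (IsFractionRing.isAlgebraic_iff ℤ ℚ M).2 (Algebra.IsAlgebraic.isAlgebraic α)
  obtain ⟨c, hc0, hc⟩ := halg.exists_integral_multiple
  refine ⟨⟨c • α, hc⟩, fun g ↦ ⟨fun hg ↦ ?_, fun hg ↦ ?_⟩⟩
  · rw [← IntermediateField.fixingSubgroup_fixedField H, ← hM,
      IntermediateField.mem_fixingSubgroup_iff]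
    change g ((c • α : M) : E) = ((c • α : M) : E) at hg
    have hgα : g (α : E) = α := by
      push_cast at hg
      rw [map_zsmul] at hg
      exact smul_right_injective E hc0 hg
    intro x hx
    have hx' : (⟨x, hx⟩ : M) ∈ IntermediateField.adjoin ℚ ({α} : Set M) := by rw [hα]; trivial
    suffices ∀ y : M, y ∈ IntermediateField.adjoin ℚ ({α} : Set M) → g (y : E) = (y : E) from
      this ⟨x, hx⟩ hx'
    intro y hy
    induction hy using IntermediateField.adjoin_induction with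
    | mem z hz => rw [Set.mem_singleton_iff] at hz; subst hz; exact hgα
    | algebraMap q => exact g.commutes q
    | add a b _ _ ha hb => push_cast; rw [map_add, ha, hb]
    | inv a _ ha => push_cast; rw [map_inv₀, ha]
    | mul a b _ _ ha hb => push_cast; rw [map_mul, ha, hb]
  · exact ((IntermediateField.mem_fixedField_iff _ _).mp (c • α : M).2) g hg

/-- Outside a finite set of primes, the ideals of norm `p` of the fixed field of `H` correspond to
the cosets of `H` fixed by a Frobenius element at `p`. -/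
theorem exists_idealCount_eq_card_fixedBy (H : Subgroup (E ≃ₐ[ℚ] E)) :
    ∃ n : ℕ, n ≠ 0 ∧ ∀ p : ℕ, p.Prime → ¬ p ∣ n →
      ∀ (F : E ≃ₐ[ℚ] E) (Q : Ideal (𝓞 E)), Q.IsPrime → (p : 𝓞 E) ∈ Q →
        (∀ x : 𝓞 E, F • x - x ^ p ∈ Q) →
        idealCount (IntermediateField.fixedField H) p
          = Nat.card {x : (E ≃ₐ[ℚ] E) ⧸ H // F • x = x} := by
  classical
  set M := IntermediateField.fixedField H with hM
  obtain ⟨θ, hθ⟩ := exists_integral_primitive E H
  let ι : 𝓞 M →+* 𝓞 E := algebraMap (𝓞 M) (𝓞 E)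
  have hιcoe : ∀ a : 𝓞 M, ((ι a : 𝓞 E) : E) = ((a : M) : E) := fun a ↦ rfl
  have hfix : ∀ (g : E ≃ₐ[ℚ] E), g ∈ H → ∀ a : 𝓞 M, g • ι a = ι a := fun g hg a ↦
    RingOfIntegers.ext (((IntermediateField.mem_fixedField_iff _ _).mp (a : M).2) g hg)
  obtain ⟨n, hn0, hn⟩ := exists_bad_integer_family E (fun g : E ≃ₐ[ℚ] E ↦ g • ι θ - ι θ)
  refine ⟨n, hn0, fun p hp hpn F Q hQ hpQ hF ↦ ?_⟩
  have hsep : ∀ Q' : Ideal (𝓞 E), Q'.IsPrime → (p : 𝓞 E) ∈ Q' → ∀ g : E ≃ₐ[ℚ] E,
      g • ι θ - ι θ ∈ Q' → g ∈ H := by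
    intro Q' hQ' hpQ' g hg
    have := hn p hp hpn Q' hQ' hpQ' g hg
    exact (hθ g).mp (congrArg (fun x : 𝓞 E ↦ (x : E)) (sub_eq_zero.mp this))
  -- the prime attached to a coset
  let P : (E ≃ₐ[ℚ] E) → Ideal (𝓞 M) := fun g ↦ (g⁻¹ • Q).comap ι
  have hmemP : ∀ g a, a ∈ P g ↔ g • ι a ∈ Q := fun g a ↦ by
    simp only [P, Ideal.mem_comap, Ideal.mem_inv_pointwise_smul_iff]
  have hpg : ∀ g : E ≃ₐ[ℚ] E, (p : 𝓞 E) ∈ g • Q := fun g ↦ by
    rw [Ideal.mem_pointwise_smul_iff_inv_smul_mem]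
    rw [show g⁻¹ • (p : 𝓞 E) = (p : 𝓞 E) from map_natCast (MulSemiringAction.toRingHom _ (𝓞 E) g⁻¹) p]
    exact hpQ
  have hPprime : ∀ g, (P g).IsPrime := fun g ↦ by
    have : (g⁻¹ • Q).IsPrime := inferInstance
    exact Ideal.IsPrime.comap ι
  have hpP : ∀ g, (p : 𝓞 M) ∈ P g := fun g ↦ by
    simp only [P, Ideal.mem_comap, map_natCast]
    exact hpg _
  have hnormP : ∀ g : E ≃ₐ[ℚ] E, g⁻¹ * F * g ∈ H → Ideal.absNorm (P g) = p := by
    intro g hg
    refine absNorm_eq_of_forall_pow_sub_mem hp (hPprime g) (hpP g) fun a ↦ ?_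
    rw [hmemP, map_sub, map_pow, smul_sub, smul_pow']
    have h1 : F • g • ι a = g • ι a := by
      have := hfix _ hg a
      rw [mul_smul, mul_smul, inv_smul_eq_iff] at this
      exact this
    have h2 := hF (g • ι a)
    rw [h1] at h2
    rw [← neg_sub]
    exact Q.neg_mem h2
  have hout : ∀ x : {x : (E ≃ₐ[ℚ] E) ⧸ H // F • x = x}, x.1.out⁻¹ * F * x.1.out ∈ H := by
    intro x
    have h := x.2
    rw [← QuotientGroup.out_eq' x.1, MulAction.Quotient.smul_mk, QuotientGroup.eq,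
      smul_eq_mul] at h
    have := H.inv_mem h
    simpa [mul_assoc] using this
  let Φ : {x : (E ≃ₐ[ℚ] E) ⧸ H // F • x = x} → {I : Ideal (𝓞 M) // Ideal.absNorm I = p} :=
    fun x ↦ ⟨P x.1.out, hnormP _ (hout x)⟩
  suffices hΦ : Function.Bijective Φ from (Nat.card_congr (Equiv.ofBijective Φ hΦ)).symm
  constructor
  · intro x y hxy
    have hP : P x.1.out = P y.1.out := congrArg Subtype.val hxy
    obtain ⟨-, c, hc⟩ := residue_of_absNorm_eq_prime hp (hnormP _ (hout x)) θ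
    have hy : θ - (c : 𝓞 M) ∈ P y.1.out := hP ▸ hc
    rw [hmemP, map_sub, map_intCast, smul_sub] at hc hy
    have hcst : ∀ g : E ≃ₐ[ℚ] E, g • (c : 𝓞 E) = c := fun g ↦
      map_intCast (MulSemiringAction.toRingHom _ (𝓞 E) g) c
    rw [hcst] at hc hy
    have hd : x.1.out • ι θ - y.1.out • ι θ ∈ Q := by simpa using Q.sub_mem hc hy
    have hmem : y.1.out⁻¹ * x.1.out ∈ H := by
      refine hsep (y.1.out⁻¹ • Q) inferInstance (hpg _) _ ?_
      rw [Ideal.mem_inv_pointwise_smul_iff, smul_sub, ← mul_smul, mul_inv_cancel_left]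
      exact hd
    refine Subtype.ext ?_
    rw [← QuotientGroup.out_eq' x.1, ← QuotientGroup.out_eq' y.1]
    exact (QuotientGroup.eq.mpr hmem).symm
  · rintro ⟨I, hI⟩
    have hIprime : I.IsPrime := Ideal.isPrime_of_irreducible_absNorm (by rw [hI]; exact hp)
    have hpI : (p : 𝓞 M) ∈ I := hI ▸ Ideal.absNorm_mem I
    obtain ⟨Q', -, hQ', hcomap⟩ := Ideal.exists_ideal_over_prime_of_isIntegral I (⊥ : Ideal (𝓞 E))
      (by rw [Ideal.comap_bot_of_injective _ (FaithfulSMul.algebraMap_injective _ _)]; exact bot_le)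
    have hpQ' : (p : 𝓞 E) ∈ Q' := by
      have := hcomap.symm ▸ hpI
      rw [Ideal.mem_comap, map_natCast] at this
      exact this
    have hunder : ∀ J : Ideal (𝓞 E), J.IsPrime → (p : 𝓞 E) ∈ J →
        J.under ℤ = Ideal.span {(p : ℤ)} := by
      intro J hJ hpJ
      refine ((PrincipalIdealRing.isMaximal_of_irreducible
        (Int.prime_iff_natAbs_prime.2 (by simpa)).irreducible).eq_of_le
          (Ideal.IsPrime.ne_top inferInstance) ?_).symm
      rw [Ideal.span_singleton_le_iff_mem, Ideal.under, Ideal.mem_comap]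
      simpa using hpJ
    have := isInvariant_ringOfIntegers E
    obtain ⟨g, hg⟩ := Algebra.IsInvariant.exists_smul_of_under_eq ℤ (𝓞 E) (E ≃ₐ[ℚ] E) Q' Q
      (by rw [hunder Q' hQ' hpQ', hunder Q hQ hpQ])
    have hQ'eq : Q' = g⁻¹ • Q := by rw [hg, inv_smul_smul]
    have hIP : I = P g := by rw [← hcomap, hQ'eq]
    have hgH : g⁻¹ * F * g ∈ H := by
      refine hsep Q' hQ' hpQ' _ ?_
      have h1 := hF (g • ι θ)
      have h2 : g • ι (θ ^ p - θ) ∈ Q := by
        rw [← hmemP, ← hIP]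
        exact (residue_of_absNorm_eq_prime hp hI θ).1
      rw [map_sub, map_pow, smul_sub, smul_pow'] at h2
      have h3 := Q.add_mem h1 h2
      rw [sub_add_sub_cancel] at h3
      rw [hQ'eq, Ideal.mem_inv_pointwise_smul_iff, smul_sub, ← mul_smul,
        show g * (g⁻¹ * F * g) = F * g by group, mul_smul]
      exact h3
    let x : (E ≃ₐ[ℚ] E) ⧸ H := QuotientGroup.mk g
    have hx : F • x = x := by
      change F • QuotientGroup.mk g = QuotientGroup.mk g
      rw [MulAction.Quotient.smul_mk, QuotientGroup.eq, smul_eq_mul]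
      have := H.inv_mem hgH
      simpa [mul_assoc] using this
    refine ⟨⟨x, hx⟩, Subtype.ext ?_⟩
    change P x.out = I
    rw [hIP]
    obtain ⟨h, hh⟩ := QuotientGroup.mk_out_eq_mul H g
    refine Ideal.ext fun a ↦ ?_
    rw [hmemP, hmemP, show x.out = g * h from hh, mul_smul, hfix _ h.2]

end Fermat.Agent.Chebotarev

end
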