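import Fermat.Agent.Chebotarev.EulerSum
import Mathlib.Analysis.SpecialFunctions.Complex.Log
import Mathlib.Analysis.SpecialFunctions.Log.Basic

/-!
# Logarithmic growth of prime sums as `s → 1⁺`

`LogSum w k` says that `∑ p, w p * p ^ (-s) - k * log (1 / (s - 1))` converges as `s → 1⁺`.
-/

set_option autoImplicit false

noncomputable section

namespace Fermat.Agent.Chebotarev

open Filter Topology Set

/-- Weighted prime sum. -/
def wSum (w : Nat.Primes → ℂ) (s : ℝ) : ℂ := ∑' p : Nat.Primes, w p * primePow p s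

/-- `log (1 / (s - 1))`. -/
def logPole (s : ℝ) : ℝ := Real.log (s - 1)⁻¹

/-- A weight is bounded. -/
def WBounded (w : Nat.Primes → ℂ) : Prop := ∃ C : ℝ, ∀ p, ‖w p‖ ≤ C

/-- `wSum w s - k * logPole s` has a limit as `s → 1⁺`. -/
def LogSum (w : Nat.Primes → ℂ) (k : ℂ) : Prop :=
  ∃ l : ℂ, Tendsto (fun s : ℝ ↦ wSum w s - k * (logPole s : ℂ)) (𝓝[>] 1) (𝓝 l)

lemma tendsto_logPole : Tendsto logPole (𝓝[>] (1 : ℝ)) atTop := by
  refine Real.tendsto_log_atTop.comp (tendsto_inv_nhdsGT_zero.comp ?_)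
  refine tendsto_nhdsWithin_iff.mpr ⟨?_, ?_⟩
  · have : Tendsto (fun s : ℝ ↦ s - 1) (𝓝 1) (𝓝 (1 - 1)) := (continuous_sub_right 1).tendsto 1
    rw [sub_self] at this
    exact this.mono_left nhdsWithin_le_nhds
  · filter_upwards [self_mem_nhdsWithin] with s hs
    exact mem_Ioi.mpr (sub_pos.mpr hs)

lemma Ioc_mem_nhdsGT_one : Ioc (1 : ℝ) 2 ∈ 𝓝[>] (1 : ℝ) := Ioc_mem_nhdsGT one_lt_two

lemma primePow_eq_ofReal (p : Nat.Primes) (s : ℝ) :
    primePow p s = (((p : ℕ) : ℝ) ^ (-s) : ℝ) := by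
  rw [primePow, Complex.ofReal_cpow (Nat.cast_nonneg _)]
  simp

lemma summable_wSum {w : Nat.Primes → ℂ} (hw : WBounded w) {s : ℝ} (hs : 1 < s) :
    Summable fun p : Nat.Primes ↦ w p * primePow p s := by
  obtain ⟨C, hC⟩ := hw
  refine Summable.of_norm_bounded
    ((Nat.Primes.summable_rpow.mpr (by linarith : -s < -1)).mul_left C) fun p ↦ ?_
  rw [norm_mul, norm_primePow p.2.pos]
  exact mul_le_mul_of_nonneg_right (hC p) (by positivity)

lemma continuousOn_wSum {w : Nat.Primes → ℂ} (hw : WBounded w) :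
    ContinuousOn (wSum w) (Ioi 1) := by
  obtain ⟨C, hC⟩ := hw
  intro s hs
  obtain ⟨a, ha1, has⟩ := exists_between (mem_Ioi.mp hs)
  have hcont : ContinuousOn (wSum w) (Ici a) := by
    refine continuousOn_tsum (fun p ↦ (continuous_const.mul (continuous_primePow p.2.pos)).continuousOn)
      ((Nat.Primes.summable_rpow.mpr (by linarith : -a < -1)).mul_left C) fun p t ht ↦ ?_
    rw [norm_mul, norm_primePow p.2.pos]
    refine mul_le_mul (hC p) (Real.rpow_le_rpow_of_exponent_le ?_ (by linarith [mem_Ici.mp ht]))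
      (by positivity) ((norm_nonneg _).trans (hC p))
    exact_mod_cast p.2.one_le
  exact (hcont.continuousAt (Ici_mem_nhds has)).continuousWithinAt

namespace WBounded

variable {w v : Nat.Primes → ℂ}

lemma add (hw : WBounded w) (hv : WBounded v) : WBounded fun p ↦ w p + v p := by
  obtain ⟨C, hC⟩ := hw
  obtain ⟨D, hD⟩ := hv
  exact ⟨C + D, fun p ↦ (norm_add_le _ _).trans (add_le_add (hC p) (hD p))⟩

lemma const_mul (hw : WBounded w) (c : ℂ) : WBounded fun p ↦ c * w p := by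
  obtain ⟨C, hC⟩ := hw
  exact ⟨‖c‖ * C, fun p ↦ by rw [norm_mul]; exact mul_le_mul_of_nonneg_left (hC p) (norm_nonneg c)⟩

lemma mul (hw : WBounded w) (hv : WBounded v) : WBounded fun p ↦ w p * v p := by
  obtain ⟨C, hC⟩ := hw
  obtain ⟨D, hD⟩ := hv
  exact ⟨C * D, fun p ↦ by
    rw [norm_mul]
    exact mul_le_mul (hC p) (hD p) (norm_nonneg _) ((norm_nonneg _).trans (hC p))⟩

lemma of_finite (h : {p | w p ≠ 0}.Finite) : WBounded w := by
  obtain ⟨C, hC⟩ := (h.image fun p ↦ ‖w p‖).bddAbove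
  refine ⟨max C 0, fun p ↦ ?_⟩
  by_cases hp : w p = 0
  · simp [hp]
  · exact (hC ⟨p, hp, rfl⟩).trans (le_max_left _ _)

end WBounded

lemma wSum_add {w v : Nat.Primes → ℂ} (hw : WBounded w) (hv : WBounded v) {s : ℝ} (hs : 1 < s) :
    wSum (fun p ↦ w p + v p) s = wSum w s + wSum v s := by
  simp only [wSum, add_mul]
  exact (summable_wSum hw hs).tsum_add (summable_wSum hv hs)

lemma wSum_const_mul (c : ℂ) (w : Nat.Primes → ℂ) (s : ℝ) :
    wSum (fun p ↦ c * w p) s = c * wSum w s := by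
  simp only [wSum, mul_assoc]
  exact tsum_mul_left

lemma wSum_finset_sum {ι : Type*} (t : Finset ι) {w : ι → Nat.Primes → ℂ}
    (hw : ∀ i ∈ t, WBounded (w i)) {s : ℝ} (hs : 1 < s) :
    wSum (fun p ↦ ∑ i ∈ t, w i p) s = ∑ i ∈ t, wSum (w i) s := by
  simp only [wSum, Finset.sum_mul]
  exact Summable.tsum_finsetSum fun i hi ↦ summable_wSum (hw i hi) hs

lemma re_wSum_le {w v : Nat.Primes → ℂ} (hw : WBounded w) (hv : WBounded v)
    (h : ∀ p, (w p).re ≤ (v p).re) {s : ℝ} (hs : 1 < s) : (wSum w s).re ≤ (wSum v s).re := by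
  have hre : ∀ u : Nat.Primes → ℂ, WBounded u →
      HasSum (fun p : Nat.Primes ↦ (u p).re * ((p : ℕ) : ℝ) ^ (-s)) (wSum u s).re := by
    intro u hu
    have := Complex.hasSum_re (summable_wSum hu hs).hasSum
    simpa [wSum, primePow_eq_ofReal] using this
  exact hasSum_le (fun p ↦ mul_le_mul_of_nonneg_right (h p) (by positivity)) (hre w hw) (hre v hv)

namespace LogSum

variable {w v : Nat.Primes → ℂ} {k k' : ℂ}

lemma congr (h : LogSum w k) (hwv : ∀ p, w p = v p) : LogSum v k := by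
  rwa [show v = w from (funext hwv).symm]

lemma add (hw : WBounded w) (hv : WBounded v) (h : LogSum w k) (h' : LogSum v k') :
    LogSum (fun p ↦ w p + v p) (k + k') := by
  obtain ⟨l, hl⟩ := h
  obtain ⟨l', hl'⟩ := h'
  refine ⟨l + l', (hl.add hl').congr' ?_⟩
  filter_upwards [self_mem_nhdsWithin] with s hs
  rw [wSum_add hw hv hs]
  ring

lemma const_mul (h : LogSum w k) (c : ℂ) : LogSum (fun p ↦ c * w p) (c * k) := by
  obtain ⟨l, hl⟩ := h
  refine ⟨c * l, (hl.const_mul c).congr fun s ↦ ?_⟩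
  rw [wSum_const_mul]
  ring

lemma sum {ι : Type*} (t : Finset ι) {w : ι → Nat.Primes → ℂ} {k : ι → ℂ}
    (hw : ∀ i ∈ t, WBounded (w i)) (h : ∀ i ∈ t, LogSum (w i) (k i)) :
    LogSum (fun p ↦ ∑ i ∈ t, w i p) (∑ i ∈ t, k i) := by
  choose l hl using h
  refine ⟨∑ i ∈ t.attach, l i i.2,
    (tendsto_finsetSum t.attach fun i _ ↦ hl i i.2).congr' ?_⟩
  filter_upwards [self_mem_nhdsWithin] with s hs
  rw [wSum_finset_sum t hw hs, Finset.sum_sub_distrib, Finset.sum_mul,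
    t.sum_attach fun i ↦ wSum (w i) s, t.sum_attach fun i ↦ k i * (logPole s : ℂ)]

lemma of_finite (h : {p | w p ≠ 0}.Finite) : LogSum w 0 := by
  refine ⟨∑ p ∈ h.toFinset, w p * primePow p 1, ?_⟩
  simp only [zero_mul, sub_zero]
  have hs : ∀ s, wSum w s = ∑ p ∈ h.toFinset, w p * primePow p s := fun s ↦
    tsum_eq_sum fun p hp ↦ by
      simp only [Finite.mem_toFinset, mem_ofPred_eq, not_not] at hp
      simp [hp]
  simp only [hs]
  exact (tendsto_finsetSum _ fun p _ ↦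
    ((continuous_const.mul (continuous_primePow p.2.pos)).tendsto 1)).mono_left nhdsWithin_le_nhds

lemma re_tendsto {k : ℝ} (h : LogSum w (k : ℂ)) :
    ∃ l : ℝ, Tendsto (fun s : ℝ ↦ (wSum w s).re - k * logPole s) (𝓝[>] 1) (𝓝 l) := by
  obtain ⟨l, hl⟩ := h
  refine ⟨l.re, ((Complex.continuous_re.tendsto l).comp hl).congr fun s ↦ ?_⟩
  simp

end LogSum

/-- A continuous determination of the logarithm of a function with nonzero limit has a limit. -/
lemma exists_tendsto_of_tendsto_exp {f : ℝ → ℂ} {l : ℂ} (hf : ContinuousOn f (Ioc 1 2))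
    (hl : l ≠ 0) (h : Tendsto (fun s ↦ Complex.exp (f s)) (𝓝[>] 1) (𝓝 l)) :
    ∃ a : ℂ, Tendsto f (𝓝[>] 1) (𝓝 a) := by
  have h1 : Tendsto (fun s ↦ Complex.exp (f s) / l) (𝓝[>] 1) (𝓝 1) := by
    simpa [hl] using h.div_const l
  have h2 : ∀ᶠ s in 𝓝[>] (1 : ℝ), Complex.exp (f s) / l ∈ Complex.slitPlane :=
    h1 (Complex.isOpen_slitPlane.mem_nhds Complex.one_mem_slitPlane)
  obtain ⟨δ, hδ, hsub⟩ :=
    mem_nhdsGT_iff_exists_Ioc_subset.mp (h2.and Ioc_mem_nhdsGT_one)
  set g : ℝ → ℂ := fun s ↦ f s - Complex.log (Complex.exp (f s) / l) with hg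
  have hgc : ContinuousOn g (Ioc 1 δ) := by
    refine (hf.mono fun s hs ↦ (hsub hs).2).sub (ContinuousOn.clog ?_ fun s hs ↦ (hsub hs).1)
    exact ((hf.mono fun s hs ↦ (hsub hs).2).cexp).div_const l
  have hge : ∀ s ∈ Ioc 1 δ, Complex.exp (g s) = l := by
    intro s hs
    rw [hg, Complex.exp_sub, Complex.exp_log (div_ne_zero (Complex.exp_ne_zero _) hl)]
    field_simp
  have hconst : ∀ s ∈ Ioc 1 δ, g s = g δ := by
    intro s hs
    have hint : ∀ t ∈ Ioc 1 δ, ∃ n : ℤ, g t = g δ + n * (2 * Real.pi * Complex.I) := fun t ht ↦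
      Complex.exp_eq_exp_iff_exists_int.mp ((hge t ht).trans (hge δ ⟨hδ, le_rfl⟩).symm)
    by_contra hne
    obtain ⟨n, hn⟩ := hint s hs
    have hn0 : n ≠ 0 := fun h0 ↦ hne (by simp [hn, h0])
    set φ : ℝ → ℝ := fun t ↦ (g t - g δ).im / (2 * Real.pi) with hφ
    have hφc : ContinuousOn φ (Icc s δ) :=
      (Complex.continuous_im.comp_continuousOn
        ((hgc.mono (Icc_subset_Ioc_iff hs.2 |>.mpr ⟨hs.1, le_rfl⟩)).sub continuousOn_const)).div_const _
    have hφint : ∀ t ∈ Icc s δ, ∃ n : ℤ, φ t = n := fun t ht ↦ by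
      obtain ⟨k, hk⟩ := hint t ⟨hs.1.trans_le ht.1, ht.2⟩
      exact ⟨k, by simp [hφ, hk, field]⟩
    have hφs : φ s = n := by simp [hφ, hn, field]
    have hφδ : φ δ = 0 := by simp [hφ]
    have hmem : ((if 0 < n then (1 : ℝ) else -1) / 2) ∈ uIcc (φ s) (φ δ) := by
      rw [hφs, hφδ, mem_uIcc]
      split_ifs with hp
      · right
        refine ⟨by norm_num, ?_⟩
        have : (1 : ℝ) ≤ n := by exact_mod_cast hp
        linarith
      · left
        refine ⟨?_, by norm_num⟩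
        have : (n : ℝ) ≤ -1 := by exact_mod_cast (show n ≤ -1 by omega)
        linarith
    have hφc' : ContinuousOn φ (uIcc s δ) := by rwa [uIcc_of_le hs.2]
    obtain ⟨t, ht, hte⟩ := intermediate_value_uIcc hφc' hmem
    rw [uIcc_of_le hs.2] at ht
    obtain ⟨k, hk⟩ := hφint t ht
    have h2k : (2 * k : ℤ) = if 0 < n then 1 else -1 := by
      have h' : ((2 * k : ℤ) : ℝ) = ((if 0 < n then 1 else -1 : ℤ) : ℝ) := by
        push_cast
        rw [← hk, hte]
        split_ifs <;> norm_num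
      exact_mod_cast h'
    split_ifs at h2k <;> omega
  have hlog : Tendsto (fun s ↦ Complex.log (Complex.exp (f s) / l)) (𝓝[>] 1) (𝓝 0) := by
    have := (continuousAt_clog Complex.one_mem_slitPlane).tendsto.comp h1
    rwa [Complex.log_one] at this
  refine ⟨g δ + 0, ((tendsto_const_nhds (x := g δ)).add hlog).congr' ?_⟩
  filter_upwards [Ioc_mem_nhdsGT hδ] with s hs
  rw [← hconst s hs, hg]
  ring

end Fermat.Agent.Chebotarev

end
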