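import Fermat.Agent.Chebotarev.Main
import Fermat.Agent.DefRing.Burnside
import Fermat.Agent.DefRing.MatrixRep
import Mathlib.LinearAlgebra.Matrix.Charpoly.Coeff
import Mathlib.RingTheory.Filtration
import Mathlib.RingTheory.Nakayama

/-!
# Traces of Galois representations and Frobenius elements

* traces of a continuous representation are congruent on cosets of small open subgroups;
* traces at Frobenius elements determine the trace;
* a residually absolutely irreducible representation kills every element not changing traces.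
-/

set_option autoImplicit false

noncomputable section

namespace Fermat.Agent.Chebotarev

open IsLocalRing Fermat.Agent.DefRing Polynomial

variable {A : Type} [CommRing A] [IsLocalRing A]

/-- Modulo `maximalIdeal ^ n`, the trace only depends on a finite level. -/
lemma exists_level_trace_congr (ρ : GaloisRepAdic A) (n : ℕ) :
    ∃ L : IntermediateField ℚ (AlgebraicClosure ℚ), FiniteDimensional ℚ L ∧
      ∀ g g' : GQ, (∀ x ∈ L, g' x = g x) → ρ.trace g' - ρ.trace g ∈ maximalIdeal A ^ n := by
  let b := repBasis ρ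
  obtain ⟨L, hL, h⟩ := isCont_matrixRep ρ b n
  refine ⟨L, hL, fun g g' hgg ↦ ?_⟩
  have hfix : ∀ x ∈ L, (g⁻¹ * g') x = x := fun x hx ↦ by
    rw [AlgEquiv.mul_apply, hgg x hx]
    exact g.symm_apply_apply x
  set N := matrixRep ρ b
  have hN : N g' - N g = N g * (N (g⁻¹ * g') - 1) := by
    rw [mul_sub, mul_one, ← map_mul, mul_inv_cancel_left]
  have htr : ρ.trace g' - ρ.trace g = Matrix.trace (N g' - N g) := by
    rw [Matrix.trace_sub]
    simp only [GaloisRepAdic.trace, N, matrixRep_apply, LinearMap.trace_eq_matrix_trace A b]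
  rw [htr, hN, Matrix.trace]
  refine Ideal.sum_mem _ fun i _ ↦ ?_
  rw [Matrix.diag_apply, Matrix.mul_apply]
  exact Ideal.sum_mem _ fun j _ ↦ Ideal.mul_mem_left _ _ (h _ hfix j i)

omit [IsLocalRing A] in
/-- The trace read off a quadratic characteristic polynomial. -/
lemma trace_eq_of_charpoly {V : Type} [AddCommGroup V] [Module A V] [Module.Free A V]
    [Module.Finite A V] [Nontrivial A] (hV : Module.finrank A V = 2) {f : Module.End A V} {a d : A}
    (h : LinearMap.charpoly f = X ^ 2 - C a * X + C d) : LinearMap.trace A V f = a := by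
  have b := Module.finBasisOfFinrankEq A V hV
  rw [LinearMap.trace_eq_matrix_trace A b, Matrix.trace_eq_neg_charpoly_coeff,
    LinearMap.charpoly_toMatrix, h, Fintype.card_fin]
  simp

/-- Two representations with the same traces at Frobenius elements outside a finite set have the
same traces everywhere. -/
theorem trace_eq_of_frobenius [IsNoetherianRing A] (ρ ρ' : GaloisRepAdic A) (S : Finset ℕ)
    (h : ∀ ℓ : ℕ, ℓ.Prime → ℓ ∉ S → ∀ P : ValuationSubring (AlgebraicClosure ℚ),
      P.LiesOverPrime ℓ → ∀ σ : GQ, P.IsFrobeniusAt σ ℓ → ρ.trace σ = ρ'.trace σ)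
    (g : GQ) : ρ.trace g = ρ'.trace g := by
  rw [← sub_eq_zero, ← Submodule.mem_bot A,
    ← Ideal.iInf_pow_eq_bot_of_isLocalRing _ (maximalIdeal.isMaximal A).ne_top, Submodule.mem_iInf]
  intro n
  obtain ⟨L, hL, hc⟩ := exists_level_trace_congr ρ n
  obtain ⟨L', hL', hc'⟩ := exists_level_trace_congr ρ' n
  obtain ⟨ℓ, hℓ, hℓS, P, hP, σ, hσ, hagree⟩ := exists_isFrobeniusAt_eqOn (L ⊔ L') g S
  have h1 := hc g σ fun x hx ↦ hagree x ((le_sup_left : L ≤ L ⊔ L') hx)
  have h2 := hc' g σ fun x hx ↦ hagree x ((le_sup_right : L' ≤ L ⊔ L') hx)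
  rw [h ℓ hℓ hℓS P hP σ hσ] at h1
  have h3 := Ideal.sub_mem _ h2 h1
  simpa using h3

/-- The matrices of a residually absolutely irreducible representation span all matrices. -/
theorem span_matrixRep_eq_top (ρ : GaloisRepAdic A) (h : ρ.residual.IsAbsolutelyIrreducible)
    (b : Module.Basis (Fin 2) A ρ.V) :
    Submodule.span A (Set.range (matrixRep ρ b)) = ⊤ := by
  let k := ResidueField A
  let bk : Module.Basis (Fin 2) k ρ.residual.V := Algebra.TensorProduct.basis k b
  have hres : ∀ σ, LinearMap.toMatrix bk bk (ρ.residual.ρ σ) = (matrixRep ρ b σ).map (residue A) :=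
    fun σ ↦ LinearMap.toMatrix_baseChange k (ρ.ρ σ) b b
  have htop := span_range_eq_top_of_isAbsolutelyIrreducible ρ.residual h bk
  rw [eq_top_iff]
  refine Submodule.le_of_le_smul_of_le_jacobson_bot Module.Finite.fg_top
    (IsLocalRing.maximalIdeal_le_jacobson _) fun M _ ↦ ?_
  have hlift : ∀ Mk : Matrix (Fin 2) (Fin 2) k,
      ∃ M' ∈ Submodule.span A (Set.range (matrixRep ρ b)), M'.map (residue A) = Mk := by
    intro Mk
    have hmem : Mk ∈ Submodule.span k
        (Set.range fun σ ↦ LinearMap.toMatrix bk bk (ρ.residual.ρ σ)) :=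
      htop ▸ Submodule.mem_top
    induction hmem using Submodule.span_induction with
    | mem x hx =>
      obtain ⟨σ, rfl⟩ := hx
      exact ⟨matrixRep ρ b σ, Submodule.subset_span ⟨σ, rfl⟩, (hres σ).symm⟩
    | zero => exact ⟨0, Submodule.zero_mem _, by ext i j; simp⟩
    | add x y _ _ hx hy =>
      obtain ⟨x', hx', rfl⟩ := hx
      obtain ⟨y', hy', rfl⟩ := hy
      exact ⟨x' + y', Submodule.add_mem _ hx' hy', by ext i j; simp⟩
    | smul c x _ hx =>
      obtain ⟨x', hx', rfl⟩ := hx
      obtain ⟨c', rfl⟩ := IsLocalRing.residue_surjective (R := A) c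
      exact ⟨c' • x', Submodule.smul_mem _ _ hx', by ext i j; simp⟩
  obtain ⟨M', hM', hMM'⟩ := hlift (M.map (residue A))
  refine Submodule.mem_sup.mpr ⟨M', hM', M - M', ?_, by abel⟩
  rw [Matrix.matrix_eq_sum_single (M - M')]
  refine Submodule.sum_mem _ fun i _ ↦ Submodule.sum_mem _ fun j _ ↦ ?_
  rw [← mul_one ((M - M') i j), ← smul_eq_mul, ← Matrix.smul_single]
  refine Submodule.smul_mem_smul ?_ Submodule.mem_top
  rw [← IsLocalRing.residue_eq_zero_iff, Matrix.sub_apply, map_sub, sub_eq_zero]
  exact (congrFun (congrFun hMM' i) j).symm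

/-- An element which does not change traces acts trivially. -/
theorem eq_one_of_forall_trace_mul (ρ : GaloisRepAdic A) (h : ρ.residual.IsAbsolutelyIrreducible)
    (σ : GQ) (ht : ∀ g : GQ, ρ.trace (g * σ) = ρ.trace g) : ρ.ρ σ = 1 := by
  let b := repBasis ρ
  set N := matrixRep ρ b
  have htop : Submodule.span A (Set.range N) = ⊤ := span_matrixRep_eq_top ρ h b
  have hzero : ∀ M : Matrix (Fin 2) (Fin 2) A, Matrix.trace (M * (N σ - 1)) = 0 := by
    intro M
    have hM : M ∈ Submodule.span A (Set.range N) := htop ▸ Submodule.mem_top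
    induction hM using Submodule.span_induction with
    | mem x hx =>
      obtain ⟨g, rfl⟩ := hx
      rw [mul_sub, mul_one, ← map_mul, Matrix.trace_sub, sub_eq_zero]
      have := ht g
      simp only [GaloisRepAdic.trace, LinearMap.trace_eq_matrix_trace A b] at this
      simpa [N] using this
    | zero => simp
    | add x y _ _ hx hy => rw [add_mul, Matrix.trace_add, hx, hy, add_zero]
    | smul c x _ hx => rw [smul_mul_assoc, Matrix.trace_smul, hx, smul_zero]
  have hN : N σ = 1 := by
    rw [← sub_eq_zero]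
    ext i j
    have := hzero (Matrix.single j i 1)
    rw [Matrix.trace_single_mul, one_smul] at this
    exact this
  apply (LinearMap.toMatrix b b).injective
  rw [LinearMap.toMatrix_one]
  exact hN

end Fermat.Agent.Chebotarev

end
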