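import Fermat.Agent.Chebotarev.DegreeOne
import Fermat.Agent.Chebotarev.LogSum
import Mathlib.NumberTheory.DirichletCharacter.Orthogonality
import Mathlib.NumberTheory.Cyclotomic.PrimitiveRoots

/-!
# Prime sums attached to Frobenius classes

Euler product consequences for the prime sums of ideal counts, plus the group theoretic counting
used by the Chebotarev theorem.
-/

set_option autoImplicit false

noncomputable section

namespace Fermat.Agent.Chebotarev

open NumberField Filter Topology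
open scoped Pointwise BigOperators

section NumberField

variable (M : Type*) [Field M] [NumberField M]

/-- The prime sum of a number field is `log (1 / (s - 1)) + O(1)`. -/
lemma logSum_idealCount : LogSum (fun p ↦ (idealCount M p : ℂ)) 1 := by
  set χ : DirichletCharacter ℂ 1 := 1 with hχ
  have hval : ∀ n : ℕ, n ≠ 0 → chiCoeff M χ n = (idealCount M n : ℂ) := fun n hn ↦ by
    rw [chiCoeff_of_ne_zero _ _ hn, hχ, MulChar.one_apply (isUnit_of_subsingleton _), one_mul]
  have hpow := fun (p : ℕ) (hp : p.Prime) (e : ℕ) ↦ norm_chiCoeff_prime_pow_le M χ hp e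
  have hre : ∀ p : ℕ, p.Prime → ∀ s : ℝ, 1 ≤ s → 0 < (eulerFactor (chiCoeff M χ) p s).re := by
    intro p hp s hs
    have hsum := summable_factor hpow hp hs
    have h1 : (eulerFactor (chiCoeff M χ) p s).re
        = ∑' e : ℕ, (idealCount M (p ^ e) : ℝ) * (((p : ℝ) ^ (-s)) ^ e) := by
      rw [eulerFactor, Complex.re_tsum hsum]
      refine tsum_congr fun e ↦ ?_
      rw [hval _ (pow_ne_zero _ hp.ne_zero), primePow_eq_ofReal ⟨p, hp⟩ s, ← Complex.ofReal_natCast,
        ← Complex.ofReal_pow, ← Complex.ofReal_mul, Complex.ofReal_re]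
    have hsr : Summable fun e : ℕ ↦ (idealCount M (p ^ e) : ℝ) * (((p : ℝ) ^ (-s)) ^ e) := by
      refine (Complex.hasSum_re hsum.hasSum).summable.congr fun e ↦ ?_
      rw [hval _ (pow_ne_zero _ hp.ne_zero), primePow_eq_ofReal ⟨p, hp⟩ s, ← Complex.ofReal_natCast,
        ← Complex.ofReal_pow, ← Complex.ofReal_mul, Complex.ofReal_re]
    rw [h1]
    refine lt_of_lt_of_le one_pos (le_trans (le_of_eq ?_)
      (hsr.le_tsum 0 fun e _ ↦ by positivity))
    simp [idealCount_one]
  obtain ⟨R, hRc, hR⟩ := exists_exp_primeSum_eq (f := chiCoeff M χ) (chiCoeff_zero M χ)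
    (chiCoeff_one M χ) (chiCoeff_mul M χ) hpow
    (fun s hs ↦ lseriesSummable_chiCoeff M χ (by simpa using hs)) hre
  set w : Nat.Primes → ℂ := fun p ↦ (idealCount M p : ℂ) with hw
  have hwP : ∀ s, primeSum (chiCoeff M χ) s = wSum w s := fun s ↦
    tsum_congr fun p ↦ by rw [hval _ p.2.ne_zero]
  have hwb : WBounded w := ⟨2 ^ Module.finrank ℚ M, fun p ↦ by
    rw [hw, Complex.norm_natCast]
    have := idealCount_prime_pow_le M p.2 1
    rw [pow_one] at this
    exact_mod_cast this⟩
  have hF : ContinuousOn (fun s ↦ wSum w s + R s - (logPole s : ℂ)) (Set.Ioc 1 2) := by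
    refine (((continuousOn_wSum hwb).mono fun s hs ↦ hs.1).add
      (hRc.mono Set.Ioc_subset_Icc_self)).sub ?_
    refine Complex.continuous_ofReal.comp_continuousOn (ContinuousOn.log ?_ ?_)
    · exact ContinuousOn.inv₀ (by fun_prop) fun s hs ↦ (sub_pos.mpr hs.1).ne'
    · exact fun s hs ↦ inv_ne_zero (sub_pos.mpr hs.1).ne'
  have hexp : Tendsto (fun s ↦ Complex.exp (wSum w s + R s - (logPole s : ℂ))) (𝓝[>] 1)
      (𝓝 (dedekindZeta_residue M : ℂ)) := by
    refine (tendsto_sub_one_mul_dedekindZeta_nhdsGT M).congr' ?_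
    filter_upwards [Ioc_mem_nhdsGT_one] with s hs
    rw [← LSeries_chiCoeff_one, ← hχ, (hR s hs).2, hwP, Complex.exp_sub (wSum w s + R s),
      ← Complex.ofReal_exp, logPole, Real.exp_log (inv_pos.mpr (sub_pos.mpr hs.1))]
    push_cast
    rw [div_inv_eq_mul]
    ring
  obtain ⟨a, ha⟩ := exists_tendsto_of_tendsto_exp hF
    (Complex.ofReal_ne_zero.mpr (dedekindZeta_residue_ne_zero M)) hexp
  refine ⟨a - R 1, (ha.sub (((hRc 1 (by simp)).tendsto.mono_left ?_))).congr fun s ↦ by ring⟩
  exact nhdsWithin_le_of_mem (mem_of_superset Ioc_mem_nhdsGT_one Set.Ioc_subset_Icc_self)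

/-- For a number field of degree `d` and a character killing all small primes, the L-series of
`χ ∘ absNorm` is the exponential of its prime sum up to a continuous function. -/
lemma exists_bound_exp_primeSum :
    ∃ B : ℕ, ∀ {m : ℕ} (χ : DirichletCharacter ℂ m), (∀ p : ℕ, p.Prime → p ≤ B → p ∣ m) →
      ∃ R : ℝ → ℂ, ContinuousOn R (Set.Icc 1 2) ∧ ∀ s ∈ Set.Ioc (1 : ℝ) 2,
        LSeries (chiCoeff M χ) s = Complex.exp (primeSum (chiCoeff M χ) s + R s) := by
  set d := Module.finrank ℚ M
  set K1 : ℝ := ∑' e : ℕ, ((e : ℝ) + (1 : ℕ) + 1) ^ d * (2⁻¹ : ℝ) ^ e with hK1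
  refine ⟨⌈K1⌉₊, fun {m} χ hsmall ↦ ?_⟩
  have hpow := fun (p : ℕ) (hp : p.Prime) (e : ℕ) ↦ norm_chiCoeff_prime_pow_le M χ hp e
  have hre : ∀ p : ℕ, p.Prime → ∀ s : ℝ, 1 ≤ s → 0 < (eulerFactor (chiCoeff M χ) p s).re := by
    intro p hp s hs
    have hsum := summable_factor hpow hp hs
    rw [eulerFactor, hsum.tsum_eq_zero_add, pow_zero, chiCoeff_one, pow_zero, mul_one,
      Complex.add_re, Complex.one_re]
    have hlt : ‖∑' e : ℕ, chiCoeff M χ (p ^ (e + 1)) * primePow p s ^ (e + 1)‖ < 1 := by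
      by_cases hpm : p ∣ m
      · have hz : ∀ e : ℕ, chiCoeff M χ (p ^ (e + 1)) = 0 := fun e ↦ by
          rw [chiCoeff_of_ne_zero _ _ (pow_ne_zero _ hp.ne_zero), MulChar.map_nonunit, zero_mul]
          intro hu
          rw [ZMod.isUnit_iff_coprime, Nat.coprime_pow_left_iff (Nat.succ_pos e)] at hu
          exact hp.coprime_iff_not_dvd.mp hu hpm
        simp [hz]
      · have hbig : K1 < p := by
          have : ⌈K1⌉₊ < p := not_le.mp fun hle ↦ hpm (hsmall p hp hle)
          exact lt_of_le_of_lt (Nat.le_ceil _) (by exact_mod_cast this)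
        refine lt_of_le_of_lt (tsum_of_norm_bounded ((summable_bound 1 d).hasSum.mul_left _)
          fun e ↦ norm_term_le hpow hp hs 1 e) ?_
        rw [← hK1, pow_one, inv_mul_lt_iff₀ (by exact_mod_cast hp.pos), mul_one]
        exact hbig
    have := (Complex.abs_re_le_norm _).trans_lt hlt
    linarith [abs_lt.mp this]
  obtain ⟨R, hRc, hR⟩ := exists_exp_primeSum_eq (f := chiCoeff M χ) (chiCoeff_zero M χ)
    (chiCoeff_one M χ) (chiCoeff_mul M χ) hpow
    (fun s hs ↦ lseriesSummable_chiCoeff M χ (by simpa using hs)) hre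
  exact ⟨R, hRc, fun s hs ↦ (hR s hs).2⟩

end NumberField

section Group

variable {G : Type*} [Group G] [Finite G]

/-- The number of elements conjugating `F` into `H`. -/
def conjCount (H : Subgroup G) (F : G) : ℕ := Nat.card {g : G // g⁻¹ * F * g ∈ H}

omit [Finite G] in
lemma conjCount_eq_card_mul (H : Subgroup G) (F : G) :
    conjCount H F = Nat.card H * Nat.card {x : G ⧸ H // F • x = x} := by
  have hiff : ∀ g : G, g ∈ (QuotientGroup.mk : G → G ⧸ H) ⁻¹' {x : G ⧸ H | F • x = x}
      ↔ g⁻¹ * F * g ∈ H := fun g ↦ by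
    rw [Set.mem_preimage, Set.mem_ofPred_eq, MulAction.Quotient.smul_mk, QuotientGroup.eq,
      smul_eq_mul, ← H.inv_mem_iff]
    simp [mul_assoc]
  rw [conjCount, ← Nat.card_prod]
  exact Nat.card_congr ((Equiv.subtypeEquivRight hiff).symm.trans
    (QuotientGroup.preimageMkEquivSubgroupProdSet H _))

lemma conjCount_le (H : Subgroup G) (F : G) : conjCount H F ≤ Nat.card G :=
  Nat.card_le_card_of_injective _ Subtype.val_injective

omit [Finite G] in
lemma exists_of_conjCount_ne_zero {H : Subgroup G} {F : G} (h : conjCount H F ≠ 0) :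
    ∃ g : G, g⁻¹ * F * g ∈ H := by
  obtain ⟨⟨⟨g, hg⟩⟩, -⟩ := Nat.card_ne_zero.mp h
  exact ⟨g, hg⟩

variable {A : Type*} [CommGroup A] (f : G →* A)

omit [Finite G] in
lemma map_conj_eq (F g : G) : f (g⁻¹ * F * g) = f F := by
  rw [map_mul, map_mul, map_inv, mul_comm, mul_inv_cancel_left]

open Classical in
omit [Finite G] in
/-- Intersecting with the kernel of an abelian character cuts the count according to the value
at `F`. -/
lemma conjCount_inf_ker (H : Subgroup G) (F : G) :
    conjCount (H ⊓ f.ker) F = if f F = 1 then conjCount H F else 0 := by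
  split_ifs with h
  · exact Nat.card_congr (Equiv.subtypeEquivRight fun g ↦ by
      simp [MonoidHom.mem_ker, h])
  · rw [conjCount, Nat.card_eq_zero]
    exact Or.inl ⟨fun g ↦ h ((map_conj_eq f F g.1).symm.trans (Subgroup.mem_inf.mp g.2).2)⟩

end Group

end Fermat.Agent.Chebotarev

end
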